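/-
S55 / [PROFIN]-LOCAL+ARCH (helper31), part (A): the archimedean index contributes nothing for `p` odd.

General averaging lemmas for a FINITE group `C` whose order is invertible in the coefficient ring:
* `H1_eq_zero_of_isUnit_card` : `H¹(C, M) = 0`;
* `continuousH2_eq_zero_of_isUnit_card` : the Prelude level-constant `H²` of `C` (w.r.t. ANY
  `r : C →* Gal(ℚ̄/ℚ)`) vanishes (the averaged cochain is level constant again).
Instances at `C = archimedeanDecomposition` (order `∣ 2`), coefficients `ZMod p`, `p` odd.
-/
import Mathlib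
import Fermat.Prelude.Def_GroupCohomology_ContinuousUnramified

set_option autoImplicit false

open CategoryTheory groupCohomology

noncomputable section

namespace Fermat.Agent.S55.ProfinLocal31.Arch

universe u

section General

variable {k C : Type u} [CommRing k] [Group C] [Finite C]

/-- `H¹` of a finite group of invertible order vanishes. -/
theorem H1_eq_zero_of_isUnit_card (M : Rep k C) (h : IsUnit (Nat.card C : k)) (x : H1 M) :
    x = 0 := by
  classical
  haveI : Fintype C := Fintype.ofFinite C
  induction x using H1_induction_on with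
  | h f =>
    rw [H1π_eq_zero_iff]
    obtain ⟨u, hu⟩ := h
    -- `m = -(1/|C|) Σ_t f t`
    refine ⟨-((↑u⁻¹ : k) • ∑ t : C, f t), ?_⟩
    funext g
    have hcoc : ∀ t : C, M.ρ g (f t) = f (g * t) - f g := by
      intro t
      have := (mem_cocycles₁_iff (A := M) (f : C → M)).1 f.2 g t
      rw [this]; abel
    have hsum : ∑ t : C, f (g * t) = ∑ t : C, f t :=
      Fintype.sum_bijective (fun t => g * t) (Group.mulLeft_bijective g) _ _ (fun _ => rfl)
    have hcard : (Fintype.card C : k) = (u : k) := by
      rw [hu, Nat.card_eq_fintype_card]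
    rw [d₀₁_hom_apply, map_neg, map_smul, map_sum]
    simp only [hcoc, Finset.sum_sub_distrib, hsum, Finset.sum_const, Finset.card_univ]
    rw [← Nat.cast_smul_eq_nsmul k, hcard]
    rw [smul_sub, smul_smul, Units.inv_mul, one_smul]
    abel
  
/-- The Prelude level-constant `H²` of a finite group of invertible order vanishes. -/
theorem continuousH2_eq_zero_of_isUnit_card
    (r : C →* (AlgebraicClosure ℚ ≃ₐ[ℚ] AlgebraicClosure ℚ)) (M : Rep k C)
    (h : IsUnit (Nat.card C : k)) (x : continuousH2 r M) : x = 0 := by
  classical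
  haveI : Fintype C := Fintype.ofFinite C
  obtain ⟨f, rfl⟩ := Submodule.Quotient.mk_surjective _ x
  show continuousH2π r M f = 0
  rw [continuousH2π_eq_zero_iff]
  obtain ⟨u, hu⟩ := h
  have hcard : (Fintype.card C : k) = (u : k) := by
    rw [hu, Nat.card_eq_fintype_card]
  obtain ⟨hfc, F, hF, hlev⟩ := f.2
  set f' : C × C → M := (f : C × C → M) with hf'
  rw [mem_levelCoboundaries₂_iff]
  refine ⟨fun g => (↑u⁻¹ : k) • ∑ t : C, f' (g, t), ⟨F, hF, fun g s hs => ?_⟩, ?_⟩
  · -- level constancy of the averaged cochain
    show (↑u⁻¹ : k) • ∑ t : C, f' (g * s, t) = (↑u⁻¹ : k) • ∑ t : C, f' (g, t)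
    congr 1
    refine Finset.sum_congr rfl fun t _ => ?_
    have := hlev g t s 1 hs (by rw [map_one]; exact one_mem _)
    rwa [mul_one] at this
  · funext ⟨g, g'⟩
    have hcoc : ∀ t : C, M.ρ g (f' (g', t)) = f' (g * g', t) - f' (g, g' * t) + f' (g, g') := by
      intro t
      have := (mem_cocycles₂_iff (A := M) f').1 hfc g g' t
      -- `f (g g', t) + f (g, g') = ρ g (f (g', t)) + f (g, g' t)`
      have h2 : M.ρ g (f' (g', t)) = f' (g * g', t) + f' (g, g') - f' (g, g' * t) := by
        rw [this]; abel
      rw [h2]; abel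
    have hsum : ∑ t : C, f' (g, g' * t) = ∑ t : C, f' (g, t) :=
      Fintype.sum_bijective (fun t => g' * t) (Group.mulLeft_bijective g') _ _ (fun _ => rfl)
    rw [d₁₂_hom_apply]
    simp only [map_smul, map_sum, hcoc, Finset.sum_add_distrib, Finset.sum_sub_distrib, hsum,
      Finset.sum_const, Finset.card_univ]
    rw [← Nat.cast_smul_eq_nsmul k, hcard]
    rw [smul_add, smul_sub, smul_smul, Units.inv_mul, one_smul]
    abel

end General

/-! ### the archimedean decomposition group -/

section Archimedean

open ExtCitation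

instance : Finite ↥archimedeanDecomposition := by
  have h : IsOfFinOrder complexConjugation :=
    isOfFinOrder_iff_pow_eq_one.2 ⟨2, by norm_num, complexConjugation_sq⟩
  exact (finite_zpowers.2 h).to_subtype

theorem card_archimedeanDecomposition_dvd_two : Nat.card ↥archimedeanDecomposition ∣ 2 := by
  unfold archimedeanDecomposition
  rw [Nat.card_zpowers]
  exact orderOf_dvd_of_pow_eq_one complexConjugation_sq

variable {p : ℕ} [Fact p.Prime]

theorem isUnit_card_archimedeanDecomposition (hp2 : p ≠ 2) :
    IsUnit (Nat.card ↥archimedeanDecomposition : ZMod p) := by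
  have hdvd := card_archimedeanDecomposition_dvd_two
  have hp : p.Prime := Fact.out
  rw [isUnit_iff_ne_zero, Ne, ZMod.natCast_eq_zero_iff]
  intro h
  have h2 : p ∣ 2 := h.trans hdvd
  exact hp2 ((Nat.prime_dvd_prime_iff_eq hp Nat.prime_two).1 h2)

/-- The archimedean component of the target of `locTotal₂S` is trivial for `p` odd. -/
theorem arch_continuousH2_eq_zero (hp2 : p ≠ 2)
    (M : Rep (ZMod p) (AlgebraicClosure ℚ ≃ₐ[ℚ] AlgebraicClosure ℚ))
    (x : continuousH2 archimedeanLoc (Rep.res archimedeanLoc M)) : x = 0 :=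
  continuousH2_eq_zero_of_isUnit_card archimedeanLoc _ (isUnit_card_archimedeanDecomposition hp2) x

/-- The archimedean component of the target of `locTotal` is trivial for `p` odd. -/
theorem arch_H1_eq_zero (hp2 : p ≠ 2)
    (M : Rep (ZMod p) (AlgebraicClosure ℚ ≃ₐ[ℚ] AlgebraicClosure ℚ))
    (x : H1 (Rep.res archimedeanLoc M)) : x = 0 :=
  H1_eq_zero_of_isUnit_card _ (isUnit_card_archimedeanDecomposition hp2) x

end Archimedean

end Fermat.Agent.S55.ProfinLocal31.Arch
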