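/-
S55 / [PROFIN]-SHA (helper31), part 1: for `p` odd the archimedean index drops out of `sha₁`, `sha₂`.

* `mem_sha₂_iff` : `x ∈ sha₂ S M ↔ ∀ q ∈ S, locRes₂S S M (primeLocalToGlobal q) x = 0`;
* `mem_sha₁_iff` : `x ∈ sha₁ S A ↔ x ∈ continuousH1S S A ∧ ∀ q ∈ S, locRes .. (Sum.inr q) x = 0`.
-/
import Mathlib
import Fermat.Prelude.Def_GroupCohomology_ContinuousUnramified
import Fermat.Agent.S55.ProfinLocal31.Arch

set_option autoImplicit false

open CategoryTheory groupCohomology ExtCitation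

noncomputable section

namespace Fermat.Agent.S55.ProfinLocal31.Sha

variable {p : ℕ} [Fact p.Prime] (S : Finset Nat.Primes)

/-- For `p` odd, `sha₂` is cut out by the finite places of `S` only. -/
theorem mem_sha₂_iff (hp2 : p ≠ 2)
    (M : Rep (ZMod p) (AlgebraicClosure ℚ ≃ₐ[ℚ] AlgebraicClosure ℚ)) (x : continuousH2S S M) :
    x ∈ sha₂ S M ↔ ∀ q : ↥S, locRes₂S S M (primeLocalToGlobal q.1) x = 0 := by
  rw [sha₂, LinearMap.mem_ker]
  constructor
  · intro h q
    exact congrFun h (Sum.inr q)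
  · intro h
    funext v
    rcases v with u | q
    · exact Arch.arch_continuousH2_eq_zero hp2 M _
    · exact h q

/-- For `p` odd, `sha₁` is cut out by the finite places of `S` only. -/
theorem mem_sha₁_iff (hp2 : p ≠ 2)
    (A : Rep (ZMod p) (AlgebraicClosure ℚ ≃ₐ[ℚ] AlgebraicClosure ℚ)) (x : H1 A) :
    x ∈ sha₁ S A ↔ x ∈ continuousH1S S A ∧
      ∀ q : ↥S, (locRes (extArithLoc S) A (Sum.inr q)).hom x = 0 := by
  rw [sha₁, Submodule.mem_inf, LinearMap.mem_ker]
  refine and_congr_right fun _ => ?_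
  constructor
  · intro h q
    exact congrFun h (Sum.inr q)
  · intro h
    funext v
    rcases v with u | q
    · exact Arch.arch_H1_eq_zero hp2 A _
    · exact h q

end Fermat.Agent.S55.ProfinLocal31.Sha
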