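/-
S55 / [PROFIN]-SHA (helper31), part 2b: `sha₁` at a FINITE level.

Setting: a group homomorphism `π : G_ℚ →* Γ` (think `Γ = Gal(L/ℚ)`, `L` an `S`-level) which is
trivial on some `S`-level (`IsSLevel S π`), and a representation `N` of `Γ`, inflated to
`Rep.res π N` on `G_ℚ`.  With `decompImage π q = π (decomp q) ≤ Γ` (the decomposition group of
`Γ` at `q`) and Mathlib's group cohomology of the (finite) group `Γ`:

* `sha1Fin S π N = ker (H¹(Γ, N) → ∏_{q ∈ S} H¹(decompImage π q, N))`, with the cocycle criterion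
  `H1π_mem_sha1Fin_iff`;
* `infl₁ π N : H¹(Γ, N) → H¹(G_ℚ, Rep.res π N)` is injective for surjective `π`;
* `infl₁_mem_sha₁_iff` : `infl₁ π N x ∈ sha₁ S (Rep.res π N) ↔ x ∈ sha1Fin S π N` (`p` odd);
* `sha1FinToSha` : the induced injection `sha1Fin S π N →ₗ sha₁ S (Rep.res π N)`, with range
  `sha₁ ⊓ range (infl₁ π N)`; hence `finrank (sha1Fin) ≤ finrank (sha₁)`.
-/
import Mathlib
import Fermat.Prelude.Def_GroupCohomology_ContinuousUnramified
import Fermat.Agent.S55.ProfinLocal31.ShaGQ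
import Fermat.Agent.S55.Profin15.GlobalH1

set_option autoImplicit false

open CategoryTheory groupCohomology ExtCitation

noncomputable section

namespace Fermat.Agent.S55.ProfinLocal31.ShaFin

open Fermat.Agent.S55.ProfinLocal26 Fermat.Agent.S55.ProfinLocal26.Abs
open Fermat.Agent.S55.Profin15

variable {Γ : Type} [Group Γ]

/-- `π : G_ℚ →* Γ` is trivial on the fixing subgroup of some field unramified outside `S`. -/
def IsSLevel (S : Finset Nat.Primes) (π : GQ →* Γ) : Prop :=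
  ∃ F : NF, F.IsUnramifiedOutside S ∧ ∀ s ∈ F.fixingSubgroup, π s = 1

/-- The image in `Γ` of the decomposition group at `q`. -/
def decompImage (π : GQ →* Γ) (q : Nat.Primes) : Subgroup Γ := (Local.decomp q).map π

lemma mem_decompImage_iff (π : GQ →* Γ) (q : Nat.Primes) (d : Γ) :
    d ∈ decompImage π q ↔ ∃ σ ∈ Local.decomp q, π σ = d := Subgroup.mem_map

variable {k : Type} [CommRing k]

/-- Inflation `H¹(Γ, N) → H¹(G_ℚ, Rep.res π N)` (Mathlib's functoriality). -/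
abbrev infl₁ (π : GQ →* Γ) (N : Rep.{0} k Γ) : H1 N →ₗ[k] H1 (Rep.res π N) :=
  (groupCohomology.map π (𝟙 (Rep.res π N)) 1).hom

/-- Inflation on cocycles. -/
abbrev inflCocycle (π : GQ →* Γ) (N : Rep.{0} k Γ) (c : cocycles₁ N) : cocycles₁ (Rep.res π N) :=
  (mapCocycles₁ π (𝟙 (Rep.res π N))).hom c

lemma inflCocycle_apply (π : GQ →* Γ) (N : Rep.{0} k Γ) (c : cocycles₁ N) (g : GQ) :
    (inflCocycle π N c : GQ → N) g = c (π g) := rfl

lemma infl₁_H1π (π : GQ →* Γ) (N : Rep.{0} k Γ) (c : cocycles₁ N) :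
    infl₁ π N ((H1π N).hom c) = (H1π (Rep.res π N)).hom (inflCocycle π N c) :=
  H1π_comp_map_apply π (𝟙 (Rep.res π N)) c

/-- Inflation is injective on `H¹` when `π` is surjective. -/
theorem infl₁_injective {π : GQ →* Γ} (hπ : Function.Surjective π) (N : Rep.{0} k Γ) :
    Function.Injective (infl₁ π N) := by
  rw [injective_iff_map_eq_zero]
  intro x hx
  induction x using H1_induction_on with | @h c =>
  rw [infl₁_H1π] at hx
  erw [H1π_eq_zero_iff] at hx
  obtain ⟨m, hm⟩ := hx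
  erw [H1π_eq_zero_iff]
  refine ⟨m, funext fun γ => ?_⟩
  obtain ⟨g, rfl⟩ := hπ γ
  have h2 := congrFun hm g
  have h3 : (d₀₁ (Rep.res π N)).hom m g = N.ρ (π g) m - m := rfl
  have h4 : (d₀₁ N).hom m (π g) = N.ρ (π g) m - m := rfl
  rw [h4, ← h3, h2]
  rfl

section Smooth

variable {S : Finset Nat.Primes} {π : GQ →* Γ}

lemma IsSLevel.isUniformlySmooth (hS : IsSLevel S π) (N : Rep.{0} k Γ) :
    IsUniformlySmooth (Rep.res π N) := by
  obtain ⟨F, hF, h⟩ := hS
  refine ⟨F, hF.1, fun s hs => ?_⟩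
  have : (Rep.res π N).ρ s = N.ρ (π s) := rfl
  rw [this, h s hs, map_one]

lemma IsSLevel.isSmooth (hS : IsSLevel S π) (N : Rep.{0} k Γ) : IsSmooth (Rep.res π N) :=
  (hS.isUniformlySmooth N).isSmooth

lemma IsSLevel.isLevelConstantS₁_inflCocycle (hS : IsSLevel S π) (N : Rep.{0} k Γ)
    (c : cocycles₁ N) : IsLevelConstantS₁ S (inflCocycle π N c : GQ → Rep.res π N) := by
  obtain ⟨F, hF, h⟩ := hS
  refine ⟨F, hF, fun g s hs => ?_⟩
  rw [inflCocycle_apply, inflCocycle_apply, map_mul, h s hs, mul_one]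

end Smooth

/-- The finite-level `Ш¹`: classes of `H¹(Γ, N)` that die on every `decompImage π q`, `q ∈ S`. -/
def sha1Fin (S : Finset Nat.Primes) (π : GQ →* Γ) (N : Rep.{0} k Γ) : Submodule k (H1 N) :=
  ⨅ q ∈ S, LinearMap.ker (LevelStr.resH1 N (decompImage π q))

lemma mem_sha1Fin_iff (S : Finset Nat.Primes) (π : GQ →* Γ) (N : Rep.{0} k Γ) (x : H1 N) :
    x ∈ sha1Fin S π N ↔ ∀ q ∈ S, LevelStr.resH1 N (decompImage π q) x = 0 := by
  simp only [sha1Fin, Submodule.mem_iInf, LinearMap.mem_ker]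

/-- Cocycle criterion for the finite-level `Ш¹`. -/
theorem H1π_mem_sha1Fin_iff (S : Finset Nat.Primes) (π : GQ →* Γ) (N : Rep.{0} k Γ)
    (c : cocycles₁ N) :
    (H1π N).hom c ∈ sha1Fin S π N ↔
      ∀ q ∈ S, ∃ n : N, ∀ d ∈ decompImage π q, c d = N.ρ d n - n := by
  rw [mem_sha1Fin_iff]
  exact forall₂_congr fun q _ => LevelStr.resH1_H1π_eq_zero_iff c (decompImage π q)

variable {p : ℕ} [Fact p.Prime]

/-- **Finite-level description of `sha₁`.** The inflation of a class `x ∈ H¹(Γ, N)` lies in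
`sha₁ S (Rep.res π N)` iff `x` dies on the decomposition groups of `Γ` at all `q ∈ S`. -/
theorem infl₁_mem_sha₁_iff (S : Finset Nat.Primes) (hp2 : p ≠ 2) {π : GQ →* Γ}
    (hS : IsSLevel S π) (N : Rep.{0} (ZMod p) Γ) (x : H1 N) :
    infl₁ π N x ∈ sha₁ S (Rep.res π N) ↔ x ∈ sha1Fin S π N := by
  induction x using H1_induction_on with | @h c =>
  rw [infl₁_H1π, H1π_mem_sha1Fin_iff,
    ShaGQ.H1π_mem_sha₁_iff S hp2 (Rep.res π N) (hS.isSmooth N) (inflCocycle π N c)
      (hS.isLevelConstantS₁_inflCocycle N c)]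
  refine forall₂_congr fun q _ => exists_congr fun n => ?_
  constructor
  · intro h d hd
    obtain ⟨σ, hσ, rfl⟩ := (mem_decompImage_iff π q d).1 hd
    exact h σ hσ
  · intro h σ hσ
    exact h (π σ) ((mem_decompImage_iff π q _).2 ⟨σ, hσ, rfl⟩)

/-- The injection of the finite-level `Ш¹` into `sha₁`. -/
def sha1FinToSha (S : Finset Nat.Primes) (hp2 : p ≠ 2) {π : GQ →* Γ} (hS : IsSLevel S π)
    (N : Rep.{0} (ZMod p) Γ) : ↥(sha1Fin S π N) →ₗ[ZMod p] ↥(sha₁ S (Rep.res π N)) :=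
  (infl₁ π N).restrict fun x hx => (infl₁_mem_sha₁_iff S hp2 hS N x).2 hx

@[simp]
lemma sha1FinToSha_coe (S : Finset Nat.Primes) (hp2 : p ≠ 2) {π : GQ →* Γ} (hS : IsSLevel S π)
    (N : Rep.{0} (ZMod p) Γ) (x : ↥(sha1Fin S π N)) :
    (sha1FinToSha S hp2 hS N x : H1 (Rep.res π N)) = infl₁ π N x := rfl

theorem sha1FinToSha_injective (S : Finset Nat.Primes) (hp2 : p ≠ 2) {π : GQ →* Γ}
    (hπ : Function.Surjective π) (hS : IsSLevel S π) (N : Rep.{0} (ZMod p) Γ) :
    Function.Injective (sha1FinToSha S hp2 hS N) := by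
  intro x y hxy
  apply Subtype.ext
  apply infl₁_injective hπ N
  have := congrArg Subtype.val hxy
  simpa using this

/-- The image of the finite-level `Ш¹` is exactly the part of `sha₁` inflated from `Γ`. -/
theorem mem_range_sha1FinToSha_iff (S : Finset Nat.Primes) (hp2 : p ≠ 2) {π : GQ →* Γ}
    (hS : IsSLevel S π) (N : Rep.{0} (ZMod p) Γ) (y : ↥(sha₁ S (Rep.res π N))) :
    y ∈ LinearMap.range (sha1FinToSha S hp2 hS N) ↔
      (y : H1 (Rep.res π N)) ∈ LinearMap.range (infl₁ π N) := by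
  constructor
  · rintro ⟨x, rfl⟩
    exact ⟨x, rfl⟩
  · rintro ⟨x, hx⟩
    have hx' : x ∈ sha1Fin S π N := by
      rw [← infl₁_mem_sha₁_iff S hp2 hS N x, hx]
      exact y.2
    exact ⟨⟨x, hx'⟩, Subtype.ext hx⟩

/-- Dimension bound: the finite-level `Ш¹` is no bigger than `sha₁`. -/
theorem finrank_sha1Fin_le (S : Finset Nat.Primes) (hp2 : p ≠ 2) {π : GQ →* Γ}
    (hπ : Function.Surjective π) (hS : IsSLevel S π) (N : Rep.{0} (ZMod p) Γ)
    [FiniteDimensional (ZMod p) ↥(sha₁ S (Rep.res π N))] :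
    Module.finrank (ZMod p) ↥(sha1Fin S π N) ≤
      Module.finrank (ZMod p) ↥(sha₁ S (Rep.res π N)) :=
  LinearMap.finrank_le_finrank_of_injective (sha1FinToSha_injective S hp2 hπ hS N)

/-- If every class of `sha₁` is inflated from `Γ`, the finite-level `Ш¹` IS `sha₁`. -/
def sha1FinEquiv (S : Finset Nat.Primes) (hp2 : p ≠ 2) {π : GQ →* Γ}
    (hπ : Function.Surjective π) (hS : IsSLevel S π) (N : Rep.{0} (ZMod p) Γ)
    (hall : ∀ y ∈ sha₁ S (Rep.res π N), y ∈ LinearMap.range (infl₁ π N)) :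
    ↥(sha1Fin S π N) ≃ₗ[ZMod p] ↥(sha₁ S (Rep.res π N)) :=
  LinearEquiv.ofBijective (sha1FinToSha S hp2 hS N)
    ⟨sha1FinToSha_injective S hp2 hπ hS N, fun y =>
      (mem_range_sha1FinToSha_iff S hp2 hS N y).2 (hall y y.2)⟩

end Fermat.Agent.S55.ProfinLocal31.ShaFin
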