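/-
S55 / [PROFIN]-SHA (helper31), part 2c: functoriality of `sha₁`, `sha₂` in the module and transport
along isomorphisms of `G_ℚ`-representations.

* `H1map f : H¹(G_ℚ, A) → H¹(G_ℚ, B)` for `f : A ⟶ B` maps `sha₁ S A` into `sha₁ S B`
  (`H1map_mem_sha₁`); `sha₁Equiv S e : sha₁ S A ≃ₗ sha₁ S B` for `e : A ≅ B`;
* `continuousH2SMap S f : continuousH2S S A → continuousH2S S B`, maps `sha₂` into `sha₂`
  (`continuousH2SMap_mem_sha₂`); `continuousH2SEquivOfIso`, `sha₂Equiv S e : sha₂ S A ≃ₗ sha₂ S B`;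
* `dualTwistMap f χ : B.dualTwist χ ⟶ A.dualTwist χ` (transpose), `dualTwistIso e χ : A.dualTwist χ ≅ B.dualTwist χ`.
No smoothness, no parity of `p`, no finiteness is used.
-/
import Mathlib
import Fermat.Prelude.Def_GroupCohomology_ContinuousUnramified

set_option autoImplicit false

open CategoryTheory groupCohomology ExtCitation

noncomputable section

namespace Fermat.Agent.S55.ProfinLocal31.ShaIso

/-- The absolute Galois group of `ℚ`. -/
abbrev GQ : Type := AlgebraicClosure ℚ ≃ₐ[ℚ] AlgebraicClosure ℚ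

variable (S : Finset Nat.Primes)

/-! ### `H¹` and `sha₁` -/

section H1

variable {K : Type} [Field K] {A B : Rep.{0} K GQ}

/-- Functoriality of `H¹(G_ℚ, -)` in the module. -/
abbrev H1map (f : A ⟶ B) : H1 A →ₗ[K] H1 B :=
  (groupCohomology.map (MonoidHom.id GQ) f 1).hom

/-- push-forward of cocycles -/
abbrev pushCocycle (f : A ⟶ B) (c : cocycles₁ A) : cocycles₁ B :=
  (mapCocycles₁ (MonoidHom.id GQ) f).hom c

lemma pushCocycle_apply (f : A ⟶ B) (c : cocycles₁ A) (g : GQ) :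
    (pushCocycle f c : GQ → B) g = f.hom (c g) := rfl

lemma H1map_H1π (f : A ⟶ B) (c : cocycles₁ A) :
    H1map f ((H1π A).hom c) = (H1π B).hom (pushCocycle f c) :=
  H1π_comp_map_apply (MonoidHom.id GQ) f c

/-- Local triviality along any `r : H →* G_ℚ` is preserved by push-forward. -/
theorem res_H1map_eq_zero {H : Type} [Group H] (r : H →* GQ) (f : A ⟶ B) (x : H1 A)
    (hx : (groupCohomology.map r (𝟙 (Rep.res r A)) 1).hom x = 0) :
    (groupCohomology.map r (𝟙 (Rep.res r B)) 1).hom (H1map f x) = 0 := by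
  induction x using H1_induction_on with | @h c =>
  have h1 : (groupCohomology.map r (𝟙 (Rep.res r A)) 1).hom ((H1π A).hom c) =
      (H1π (Rep.res r A)).hom ((mapCocycles₁ r (𝟙 (Rep.res r A))).hom c) :=
    H1π_comp_map_apply r (𝟙 (Rep.res r A)) c
  rw [h1] at hx
  erw [H1π_eq_zero_iff] at hx
  obtain ⟨m, hm⟩ := hx
  rw [H1map_H1π]
  have h2 : (groupCohomology.map r (𝟙 (Rep.res r B)) 1).hom ((H1π B).hom (pushCocycle f c)) =
      (H1π (Rep.res r B)).hom ((mapCocycles₁ r (𝟙 (Rep.res r B))).hom (pushCocycle f c)) :=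
    H1π_comp_map_apply r (𝟙 (Rep.res r B)) (pushCocycle f c)
  rw [h2]
  erw [H1π_eq_zero_iff]
  refine ⟨f.hom m, funext fun τ => ?_⟩
  have h3 := congrFun hm τ
  have h4 : (d₀₁ (Rep.res r A)).hom m τ = A.ρ (r τ) m - m := rfl
  have h5 : (d₀₁ (Rep.res r B)).hom (f.hom m) τ = B.ρ (r τ) (f.hom m) - f.hom m := rfl
  have h6 : ((mapCocycles₁ r (𝟙 (Rep.res r A))).hom c : H → A) τ = c (r τ) := rfl
  have h7 : ((mapCocycles₁ r (𝟙 (Rep.res r B))).hom (pushCocycle f c) : H → B) τ =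
      f.hom (c (r τ)) := rfl
  rw [h5, h7, ← Rep.hom_comm_apply, ← map_sub, ← h4, h3, h6]

/-- Push-forward preserves `continuousH1S`. -/
theorem H1map_mem_continuousH1S (f : A ⟶ B) {x : H1 A} (hx : x ∈ continuousH1S S A) :
    H1map f x ∈ continuousH1S S B := by
  obtain ⟨c, hc, rfl⟩ := (mem_continuousH1S_iff S A x).1 hx
  rw [H1map_H1π]
  refine (mem_continuousH1S_iff S B _).2 ⟨pushCocycle f c, ?_, rfl⟩
  exact hc.comp f.hom

/-- **Functoriality of `sha₁` in the module.** -/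
theorem H1map_mem_sha₁ (f : A ⟶ B) {x : H1 A} (hx : x ∈ sha₁ S A) : H1map f x ∈ sha₁ S B := by
  rw [sha₁, Submodule.mem_inf, LinearMap.mem_ker] at hx ⊢
  refine ⟨H1map_mem_continuousH1S S f hx.1, funext fun v => ?_⟩
  exact res_H1map_eq_zero (extArithLoc S v) f x (congrFun hx.2 v)

/-- The isomorphism `H¹(G_ℚ, A) ≃ H¹(G_ℚ, B)` induced by `e : A ≅ B`. -/
def H1Equiv (e : A ≅ B) : H1 A ≃ₗ[K] H1 B :=
  ((groupCohomology.functor K GQ 1).mapIso e).toLinearEquiv

lemma H1Equiv_apply (e : A ≅ B) (x : H1 A) : H1Equiv e x = H1map e.hom x := rfl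

lemma H1Equiv_symm_apply (e : A ≅ B) (y : H1 B) : (H1Equiv e).symm y = H1map e.inv y := rfl

/-- **Transport of `sha₁` along an isomorphism of representations.** -/
def sha₁Equiv (e : A ≅ B) : ↥(sha₁ S A) ≃ₗ[K] ↥(sha₁ S B) :=
  LinearEquiv.ofSubmodules (H1Equiv e) (sha₁ S A) (sha₁ S B) (by
    apply le_antisymm
    · rintro _ ⟨x, hx, rfl⟩
      exact H1map_mem_sha₁ S e.hom hx
    · intro y hy
      refine ⟨(H1Equiv e).symm y, ?_, (H1Equiv e).apply_symm_apply y⟩
      exact H1map_mem_sha₁ S e.inv hy)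

@[simp]
lemma sha₁Equiv_coe (e : A ≅ B) (x : ↥(sha₁ S A)) :
    (sha₁Equiv S e x : H1 B) = H1map e.hom x := rfl

end H1

/-! ### `H²` and `sha₂` -/

section H2

variable {k : Type} [CommRing k] {A B : Rep.{0} k GQ}

/-- push-forward of `2`-cochains along a morphism of representations -/
def push₂ (f : A ⟶ B) : (GQ × GQ → A) →ₗ[k] (GQ × GQ → B) where
  toFun c := fun x => f.hom (c x)
  map_add' c c' := by ext x; simp
  map_smul' a c := by ext x; simp

/-- push-forward of `1`-cochains -/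
def push₁ (f : A ⟶ B) : (GQ → A) →ₗ[k] (GQ → B) where
  toFun c := fun x => f.hom (c x)
  map_add' c c' := by ext x; simp
  map_smul' a c := by ext x; simp

@[simp] lemma push₂_apply (f : A ⟶ B) (c : GQ × GQ → A) (x : GQ × GQ) :
    push₂ f c x = f.hom (c x) := rfl

@[simp] lemma push₁_apply (f : A ⟶ B) (c : GQ → A) (x : GQ) : push₁ f c x = f.hom (c x) := rfl

lemma push₂_d₁₂ (f : A ⟶ B) (x : GQ → A) :
    push₂ f ((d₁₂ A).hom x) = (d₁₂ B).hom (push₁ f x) := by
  ext ⟨g, h⟩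
  simp only [push₂_apply, d₁₂_hom_apply, push₁_apply, map_add, map_sub, Rep.hom_comm_apply]

lemma push₂_mem_cocycles₂ (f : A ⟶ B) {c : GQ × GQ → A} (hc : c ∈ cocycles₂ A) :
    push₂ f c ∈ cocycles₂ B := by
  rw [mem_cocycles₂_iff] at hc ⊢
  intro g h j
  simp only [push₂_apply]
  rw [← map_add, hc g h j, map_add, Rep.hom_comm_apply]

lemma push₂_mem_levelCocyclesS₂ (f : A ⟶ B) {c : GQ × GQ → A} (hc : c ∈ levelCocyclesS₂ S A) :
    push₂ f c ∈ levelCocyclesS₂ S B :=
  ⟨push₂_mem_cocycles₂ f hc.1, hc.2.comp f.hom⟩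

lemma push₂_mem_levelCoboundariesS₂ (f : A ⟶ B) {c : GQ × GQ → A}
    (hc : c ∈ levelCoboundariesS₂ S A) : push₂ f c ∈ levelCoboundariesS₂ S B := by
  obtain ⟨x, hx, rfl⟩ := (mem_levelCoboundariesS₂_iff S A c).1 hc
  exact (mem_levelCoboundariesS₂_iff S B _).2 ⟨push₁ f x, hx.comp f.hom, (push₂_d₁₂ f x).symm⟩

/-- push-forward on `S`-level `2`-cocycles -/
def levelCocyclesS₂Map (f : A ⟶ B) : ↥(levelCocyclesS₂ S A) →ₗ[k] ↥(levelCocyclesS₂ S B) :=
  (push₂ f).restrict fun _ hc => push₂_mem_levelCocyclesS₂ S f hc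

@[simp] lemma coe_levelCocyclesS₂Map (f : A ⟶ B) (c : ↥(levelCocyclesS₂ S A)) :
    (levelCocyclesS₂Map S f c : GQ × GQ → B) = push₂ f c := rfl

/-- **Functoriality of `continuousH2S` in the module.** -/
def continuousH2SMap (f : A ⟶ B) : continuousH2S S A →ₗ[k] continuousH2S S B :=
  Submodule.mapQ _ _ (levelCocyclesS₂Map S f) (fun c hc => by
    simp only [Submodule.mem_comap, Submodule.subtype_apply] at hc ⊢
    exact push₂_mem_levelCoboundariesS₂ S f hc)

@[simp] lemma continuousH2SMap_π (f : A ⟶ B) (c : ↥(levelCocyclesS₂ S A)) :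
    continuousH2SMap S f (continuousH2Sπ S A c) = continuousH2Sπ S B (levelCocyclesS₂Map S f c) :=
  rfl

lemma continuousH2SMap_id (x : continuousH2S S A) : continuousH2SMap S (𝟙 A) x = x := by
  obtain ⟨c, rfl⟩ := Submodule.mkQ_surjective _ x
  rfl

lemma continuousH2SMap_comp {C : Rep.{0} k GQ} (f : A ⟶ B) (g : B ⟶ C) (x : continuousH2S S A) :
    continuousH2SMap S (f ≫ g) x = continuousH2SMap S g (continuousH2SMap S f x) := by
  obtain ⟨c, rfl⟩ := Submodule.mkQ_surjective _ x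
  rfl

/-- Local triviality of `H²`-classes along any `r : H →* G_ℚ` is preserved by push-forward. -/
theorem locRes₂S_continuousH2SMap_eq_zero {H : Type} [Group H] (r : H →* GQ) (f : A ⟶ B)
    (x : continuousH2S S A) (hx : locRes₂S S A r x = 0) :
    locRes₂S S B r (continuousH2SMap S f x) = 0 := by
  obtain ⟨c, rfl⟩ := Submodule.mkQ_surjective _ x
  have h1 : locRes₂S S A r (continuousH2Sπ S A c) =
      continuousH2π r (Rep.res r A)
        (levelCocycles₂Map (rH := MonoidHom.id _) (rG := r) r (fun _ => rfl)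
          (LinearMap.id : A →ₗ[k] Rep.res r A) (fun _ _ => rfl)
          (levelCocyclesS₂ToLevelCocycles₂ S A c)) := rfl
  have h2 : locRes₂S S B r (continuousH2Sπ S B (levelCocyclesS₂Map S f c)) =
      continuousH2π r (Rep.res r B)
        (levelCocycles₂Map (rH := MonoidHom.id _) (rG := r) r (fun _ => rfl)
          (LinearMap.id : B →ₗ[k] Rep.res r B) (fun _ _ => rfl)
          (levelCocyclesS₂ToLevelCocycles₂ S B (levelCocyclesS₂Map S f c))) := rfl
  change locRes₂S S A r (continuousH2Sπ S A c) = 0 at hx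
  rw [h1, continuousH2π_eq_zero_iff, mem_levelCoboundaries₂_iff] at hx
  obtain ⟨y, hy, hyc⟩ := hx
  change locRes₂S S B r (continuousH2Sπ S B (levelCocyclesS₂Map S f c)) = 0
  rw [h2, continuousH2π_eq_zero_iff, mem_levelCoboundaries₂_iff]
  refine ⟨fun τ => f.hom (y τ), hy.comp f.hom, ?_⟩
  ext ⟨τ, τ'⟩
  have h3 := congrFun hyc (τ, τ')
  have h4 : (d₁₂ (Rep.res r A)).hom y (τ, τ') = A.ρ (r τ) (y τ') - y (τ * τ') + y τ := rfl
  have h5 : (d₁₂ (Rep.res r B)).hom (fun τ => f.hom (y τ)) (τ, τ') =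
      B.ρ (r τ) (f.hom (y τ')) - f.hom (y (τ * τ')) + f.hom (y τ) := rfl
  have h6 : ((levelCocycles₂Map (rH := MonoidHom.id _) (rG := r) r (fun _ => rfl)
          (LinearMap.id : A →ₗ[k] Rep.res r A) (fun _ _ => rfl)
          (levelCocyclesS₂ToLevelCocycles₂ S A c) : ↥(levelCocycles₂ r (Rep.res r A))) :
          H × H → A) (τ, τ') = (c : GQ × GQ → A) (r τ, r τ') := rfl
  have h7 : ((levelCocycles₂Map (rH := MonoidHom.id _) (rG := r) r (fun _ => rfl)
          (LinearMap.id : B →ₗ[k] Rep.res r B) (fun _ _ => rfl)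
          (levelCocyclesS₂ToLevelCocycles₂ S B (levelCocyclesS₂Map S f c)) :
          ↥(levelCocycles₂ r (Rep.res r B))) : H × H → B) (τ, τ') =
          f.hom ((c : GQ × GQ → A) (r τ, r τ')) := rfl
  rw [h5, h7, ← Rep.hom_comm_apply, ← map_sub, ← map_add, ← h4, h3, h6]

/-- **Functoriality of `sha₂` in the module.** -/
theorem continuousH2SMap_mem_sha₂ (f : A ⟶ B) {x : continuousH2S S A} (hx : x ∈ sha₂ S A) :
    continuousH2SMap S f x ∈ sha₂ S B := by
  rw [sha₂, LinearMap.mem_ker] at hx ⊢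
  funext v
  exact locRes₂S_continuousH2SMap_eq_zero S (extArithLoc S v) f x (congrFun hx v)

/-- The isomorphism `continuousH2S S A ≃ continuousH2S S B` induced by `e : A ≅ B`. -/
def continuousH2SEquivOfIso (e : A ≅ B) : continuousH2S S A ≃ₗ[k] continuousH2S S B :=
  LinearEquiv.ofLinear (continuousH2SMap S e.hom) (continuousH2SMap S e.inv)
    (by
      ext x
      simp only [LinearMap.coe_comp, Function.comp_apply, LinearMap.id_coe, id_eq]
      rw [← continuousH2SMap_comp, e.inv_hom_id, continuousH2SMap_id])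
    (by
      ext x
      simp only [LinearMap.coe_comp, Function.comp_apply, LinearMap.id_coe, id_eq]
      rw [← continuousH2SMap_comp, e.hom_inv_id, continuousH2SMap_id])

/-- **Transport of `sha₂` along an isomorphism of representations.** -/
def sha₂Equiv (e : A ≅ B) : ↥(sha₂ S A) ≃ₗ[k] ↥(sha₂ S B) :=
  LinearEquiv.ofSubmodules (continuousH2SEquivOfIso S e) (sha₂ S A) (sha₂ S B) (by
    apply le_antisymm
    · rintro _ ⟨x, hx, rfl⟩
      exact continuousH2SMap_mem_sha₂ S e.hom hx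
    · intro y hy
      refine ⟨(continuousH2SEquivOfIso S e).symm y, ?_,
        (continuousH2SEquivOfIso S e).apply_symm_apply y⟩
      exact continuousH2SMap_mem_sha₂ S e.inv hy)

@[simp]
lemma sha₂Equiv_coe (e : A ≅ B) (x : ↥(sha₂ S A)) :
    (sha₂Equiv S e x : continuousH2S S B) = continuousH2SMap S e.hom x := rfl

end H2

/-! ### `dualTwist` of a morphism / isomorphism -/

section DualTwist

variable {k : Type} [CommRing k] {G : Type} [Group G] {A B C : Rep.{0} k G}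

/-- The transpose of `f : A ⟶ B` as a morphism `B.dualTwist χ ⟶ A.dualTwist χ`. -/
def dualTwistMap (f : A ⟶ B) (χ : G →* kˣ) : B.dualTwist χ ⟶ A.dualTwist χ :=
  Rep.ofHom ⟨Module.Dual.transpose (R := k) f.hom.toLinearMap, fun g => by
    apply LinearMap.ext
    intro φ
    apply LinearMap.ext
    intro a
    show ((χ g : k) • (φ ∘ₗ B.ρ g⁻¹)) (f.hom a) = ((χ g : k) • ((φ ∘ₗ f.hom.toLinearMap) ∘ₗ A.ρ g⁻¹)) a
    simp only [LinearMap.smul_apply, LinearMap.comp_apply]
    congr 2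
    exact (Rep.hom_comm_apply f g⁻¹ a).symm⟩

lemma dualTwistMap_hom_apply (f : A ⟶ B) (χ : G →* kˣ) (φ : Module.Dual k B) (a : A) :
    ((dualTwistMap f χ).hom φ : Module.Dual k A) a = φ (f.hom a) := rfl

lemma dualTwistMap_id (χ : G →* kˣ) : dualTwistMap (𝟙 A) χ = 𝟙 (A.dualTwist χ) := by
  apply Rep.hom_ext
  ext φ a
  rfl

lemma dualTwistMap_comp (f : A ⟶ B) (g : B ⟶ C) (χ : G →* kˣ) :
    dualTwistMap (f ≫ g) χ = dualTwistMap g χ ≫ dualTwistMap f χ := by
  apply Rep.hom_ext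
  ext φ a
  rfl

/-- An isomorphism `A ≅ B` induces `A.dualTwist χ ≅ B.dualTwist χ`. -/
def dualTwistIso (e : A ≅ B) (χ : G →* kˣ) : A.dualTwist χ ≅ B.dualTwist χ where
  hom := dualTwistMap e.inv χ
  inv := dualTwistMap e.hom χ
  hom_inv_id := by rw [← dualTwistMap_comp, e.hom_inv_id, dualTwistMap_id]
  inv_hom_id := by rw [← dualTwistMap_comp, e.inv_hom_id, dualTwistMap_id]

end DualTwist

end Fermat.Agent.S55.ProfinLocal31.ShaIso
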