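/-
S55 / [PROFIN]-SHA (helper31), part 2d: every module of the frozen S55 statement is INFLATED from a
finite quotient of `G_ℚ` by an `S`-level, and `Spine15.DimStatement` may be checked on such modules.

* `ker_mem_globalLevels` : under the hypotheses `hsm`, `hMur` of the frozen statement (and finite
  dimensionality), `ker M.ρ` is a level of `Profin15.globalLevels S` (normal, finite index, the
  fixing subgroup of a field unramified outside `S`);
* `levelRep M U hU : Rep k (G_ℚ ⧸ U)` for a normal `U ≤ ker M.ρ` and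
  `levelIso M U hU : M ≅ Rep.res (QuotientGroup.mk' U) (levelRep M U hU)`;
* `resCongrIso`, `resCompIso` : bookkeeping isomorphisms for changing the level;
* `dimStatement_of_inflated` : `Spine15.DimStatement` follows from the same three assertions for
  the modules `Rep.res π N` with `Γ` a finite group, `π : G_ℚ →* Γ` surjective and trivial on an
  `S`-level, `N` a finite-dimensional representation of `Γ` (transport via `ShaIso`).
-/
import Mathlib
import Fermat.Prelude.Def_GroupCohomology_ContinuousUnramified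
import Fermat.Agent.S55.Spine15
import Fermat.Agent.S55.ProfinLocal31.ShaFin
import Fermat.Agent.S55.ProfinLocal31.ShaIso

set_option autoImplicit false
set_option linter.style.haveILetI false

open CategoryTheory groupCohomology ExtCitation Module

noncomputable section

namespace Fermat.Agent.S55.ProfinLocal31.LevelModel

open Fermat.Agent.S55.ProfinLocal26.Abs Fermat.Agent.S55.Profin15
open Fermat.Agent.Lib.FrobeniusExists (isAlgebraic_Qb isAlgClosure_Qb isGalois_Qb)

attribute [local instance] isAlgebraic_Qb isAlgClosure_Qb isGalois_Qb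

variable {k : Type} [CommRing k]

/-- Under the hypotheses of the frozen S55 statement the kernel of the action is an `S`-level. -/
theorem ker_mem_globalLevels (S : Finset Nat.Primes) (M : Rep.{0} k GQ) [Module.Finite k M]
    (hsm : ∀ m : M, ∃ F : IntermediateField ℚ (AlgebraicClosure ℚ), FiniteDimensional ℚ F ∧
      ∀ s ∈ F.fixingSubgroup, M.ρ s m = m)
    (hMur : ∀ q : Nat.Primes, q ∉ S → ∀ A : ValuationSubring (AlgebraicClosure ℚ),
      A.LiesOverPrime (q : ℕ) → ∀ g ∈ A.inertiaSubgroupIn ℚ, M.ρ g = 1) :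
    M.ρ.ker ∈ (globalLevels S).levels := by
  obtain ⟨F₀, hF₀, hF₀s⟩ := isUniformlySmooth_of_finite (M := M) hsm
  haveI := hF₀
  have hle : F₀.fixingSubgroup ≤ M.ρ.ker := fun s hs => MonoidHom.mem_ker.2 (hF₀s s hs)
  have hopen : IsOpen (M.ρ.ker : Set GQ) :=
    Subgroup.isOpen_mono hle (IntermediateField.fixingSubgroup_isOpen F₀)
  have hclosed : IsClosed (M.ρ.ker : Set GQ) := Subgroup.isClosed_of_isOpen _ hopen
  set K : IntermediateField ℚ (AlgebraicClosure ℚ) := IntermediateField.fixedField M.ρ.ker with hK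
  have hfix : K.fixingSubgroup = M.ρ.ker :=
    InfiniteGalois.fixingSubgroup_fixedField ⟨M.ρ.ker, hclosed⟩
  have hfin : FiniteDimensional ℚ K := by
    rw [← InfiniteGalois.isOpen_iff_finite, hfix]
    exact hopen
  refine ⟨inferInstance, K, ⟨hfin, fun q hq A hA σ hσ => ?_⟩, hfix.symm⟩
  rw [hfix]
  exact MonoidHom.mem_ker.2 (hMur q hq A hA σ hσ)

/-- The descent of `M` to the quotient by a normal subgroup acting trivially. -/
def levelRep (M : Rep.{0} k GQ) (U : Subgroup GQ) [U.Normal] (hU : U ≤ M.ρ.ker) :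
    Rep.{0} k (GQ ⧸ U) :=
  Rep.of (QuotientGroup.lift U M.ρ hU)

lemma levelRep_ρ_mk (M : Rep.{0} k GQ) (U : Subgroup GQ) [U.Normal] (hU : U ≤ M.ρ.ker) (g : GQ) :
    (levelRep M U hU).ρ (QuotientGroup.mk' U g) = M.ρ g := rfl

/-- `M` is the inflation of its descent. -/
def levelIso (M : Rep.{0} k GQ) (U : Subgroup GQ) [U.Normal] (hU : U ≤ M.ρ.ker) :
    M ≅ Rep.res (QuotientGroup.mk' U) (levelRep M U hU) where
  hom := Rep.ofHom (ρ := M.ρ) (σ := (Rep.res (QuotientGroup.mk' U) (levelRep M U hU)).ρ)
    ⟨LinearMap.id, fun _ => rfl⟩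
  inv := Rep.ofHom (ρ := (Rep.res (QuotientGroup.mk' U) (levelRep M U hU)).ρ) (σ := M.ρ)
    ⟨LinearMap.id, fun _ => rfl⟩
  hom_inv_id := rfl
  inv_hom_id := rfl

/-- Equal homomorphisms give isomorphic restrictions (identity on the underlying module). -/
def resCongrIso {Γ : Type} [Group Γ] {π π' : GQ →* Γ} (h : π = π') (N : Rep.{0} k Γ) :
    Rep.res π N ≅ Rep.res π' N :=
  eqToIso (by rw [h])

/-- Inflation in two steps. -/
def resCompIso {Γ Γ' : Type} [Group Γ] [Group Γ'] (φ : Γ' →* Γ) (π' : GQ →* Γ') (N : Rep.{0} k Γ) :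
    Rep.res (φ.comp π') N ≅ Rep.res π' (Rep.res φ N) :=
  Iso.refl _

section Reduction

open ShaFin

/-- **Reduction of the S55 dimension statement to inflated modules.** It suffices to treat
`Rep.res π N` for a finite group `Γ`, a surjection `π : G_ℚ →* Γ` trivial on an `S`-level and a
finite-dimensional representation `N` of `Γ`. -/
theorem dimStatement_of_inflated
    (H : ∀ {p : ℕ} [Fact p.Prime], p ≠ 2 → ∀ (S : Finset Nat.Primes), pPrime p ∈ S →
      ∀ (Γ : Type) [Group Γ] [Finite Γ] (π : GQ →* Γ), Function.Surjective π → IsSLevel S π →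
      ∀ (N : Rep.{0} (ZMod p) Γ) [FiniteDimensional (ZMod p) N],
        FiniteDimensional (ZMod p) (sha₁ S ((Rep.res π N).dualTwist (cycloChar p))) ∧
        FiniteDimensional (ZMod p) (sha₂ S (Rep.res π N)) ∧
        finrank (ZMod p) (sha₁ S ((Rep.res π N).dualTwist (cycloChar p))) =
          finrank (ZMod p) (sha₂ S (Rep.res π N))) :
    Fermat.Agent.S55.Spine15.DimStatement := by
  intro p _ hp2 S hpS M _ hsm hMur
  have hker := ker_mem_globalLevels S M hsm hMur
  set U : Subgroup GQ := M.ρ.ker with hUdef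
  haveI : U.Normal := (globalLevels S).normal U hker
  haveI : U.FiniteIndex := (globalLevels S).finiteIndex U hker
  haveI : Finite (GQ ⧸ U) := Subgroup.finite_quotient_of_finiteIndex
  obtain ⟨_, F, hF, hUF⟩ := hker
  have hS : IsSLevel S (QuotientGroup.mk' U) :=
    ⟨F, hF, fun s hs => (QuotientGroup.eq_one_iff s).2 (hUF ▸ hs)⟩
  let N : Rep.{0} (ZMod p) (GQ ⧸ U) := levelRep M U le_rfl
  haveI : FiniteDimensional (ZMod p) N := inferInstanceAs (FiniteDimensional (ZMod p) M)
  obtain ⟨h1, h2, h3⟩ := H hp2 S hpS (GQ ⧸ U) (QuotientGroup.mk' U)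
    (QuotientGroup.mk'_surjective U) hS N
  let e : M ≅ Rep.res (QuotientGroup.mk' U) N := levelIso M U le_rfl
  let e₁ := ShaIso.sha₁Equiv S (ShaIso.dualTwistIso e (cycloChar p))
  let e₂ := ShaIso.sha₂Equiv S e
  haveI := h1
  haveI := h2
  refine ⟨e₁.symm.finiteDimensional, e₂.symm.finiteDimensional, ?_⟩
  rw [e₁.finrank_eq, e₂.finrank_eq]
  exact h3

end Reduction

end Fermat.Agent.S55.ProfinLocal31.LevelModel
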