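/-
S55 / [PROFIN]-SHA (helper31), part 3: STABILISATION of `sha₁` along the levels (the `sha₁`-side of
step T6 of blueprint v2).

* `range_infl₁_eq_ker_res` : inflation–restriction in degree `1` for `π : G_ℚ →* Γ` surjective:
  `range (infl₁ π N) = ker (res to π.ker)`;
* `shaLevel S A V = sha₁ S A ⊓ ker (res_V)` : the part of `sha₁` which dies on `V`; it increases when
  `V` shrinks and exhausts `sha₁` (`exists_level_mem_shaLevel`);
* `sha₁_finrank_of_stable` : if all `shaLevel S A V`, `V ≤ U₀` a level, are finite-dimensional of the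
  same dimension `d` then `sha₁ S A` is finite-dimensional of dimension `d`;
* `finrank_shaLevel_eq` : `shaLevel S A V` has the dimension of the finite-level group
  `ShaFin.sha1Fin S (mk' V) (levelRep A V hV)`;
* `sha₁_finrank_of_levels` : the corollary consumed by the top layer.
-/
import Mathlib
import Fermat.Prelude.Def_GroupCohomology_ContinuousUnramified
import Fermat.Agent.S55.ProfinLocal31.ShaFin
import Fermat.Agent.S55.ProfinLocal31.ShaIso
import Fermat.Agent.S55.ProfinLocal31.LevelModel

set_option autoImplicit false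
set_option linter.style.haveILetI false

open CategoryTheory groupCohomology ExtCitation Module

noncomputable section

namespace Fermat.Agent.S55.ProfinLocal31.Stab

open Fermat.Agent.S55.ProfinLocal26.Abs Fermat.Agent.S55.Profin15
open ShaFin

/-! ### Inflation–restriction in degree one -/

section InfRes

variable {Γ : Type} [Group Γ] {k : Type} [CommRing k]

/-- `range (inflation) = ker (restriction to the kernel)` on `H¹`, for surjective `π`. -/
theorem range_infl₁_eq_ker_res {π : GQ →* Γ} (hπ : Function.Surjective π) (N : Rep.{0} k Γ) :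
    LinearMap.range (infl₁ π N) = LinearMap.ker (LevelStr.resH1 (Rep.res π N) π.ker) := by
  apply le_antisymm
  · rintro _ ⟨y, rfl⟩
    induction y using H1_induction_on with | @h c =>
    rw [LinearMap.mem_ker, infl₁_H1π, LevelStr.resH1_H1π_eq_zero_iff]
    refine ⟨0, fun s hs => ?_⟩
    rw [inflCocycle_apply, MonoidHom.mem_ker.1 hs, cocycles₁_map_one, map_zero, sub_zero]
  · intro x hx
    induction x using H1_induction_on with | @h c =>
    rw [LinearMap.mem_ker, LevelStr.resH1_H1π_eq_zero_iff] at hx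
    obtain ⟨m, hm⟩ := hx
    -- the cocycle vanishes on the kernel
    have hker : ∀ s ∈ π.ker, c s = 0 := by
      intro s hs
      have h1 : (Rep.res π N).ρ s m = m := by
        have : (Rep.res π N).ρ s = N.ρ (π s) := rfl
        rw [this, MonoidHom.mem_ker.1 hs, map_one]; rfl
      rw [hm s hs, h1, sub_self]
    -- hence it only depends on the image in `Γ`
    have hconst : ∀ a b : GQ, π a = π b → c a = c b := by
      intro a b hab
      have hs : a⁻¹ * b ∈ π.ker := by
        rw [MonoidHom.mem_ker, map_mul, map_inv, hab, inv_mul_cancel]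
      have := LevelStr.cocycle_const_of_apply_eq_zero (M := Rep.res π N) (c := c) hker a _ hs
      rw [mul_inv_cancel_left] at this
      exact this.symm
    let cbar : Γ → N := fun γ => c (Function.surjInv hπ γ)
    have hcbar : ∀ g : GQ, cbar (π g) = c g := fun g =>
      hconst _ _ (Function.surjInv_eq hπ (π g))
    have hcoc : cbar ∈ cocycles₁ N := by
      rw [mem_cocycles₁_iff]
      intro γ γ'
      obtain ⟨g, rfl⟩ := hπ γ
      obtain ⟨g', rfl⟩ := hπ γ'
      rw [← map_mul, hcbar, hcbar, hcbar]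
      exact (mem_cocycles₁_iff (A := Rep.res π N) c).1 c.2 g g'
    refine ⟨(H1π N).hom ⟨cbar, hcoc⟩, ?_⟩
    rw [infl₁_H1π]
    congr 1
    apply Subtype.ext
    funext g
    exact hcbar g

end InfRes

/-! ### The filtration of `sha₁` by levels -/

section Filtration

variable (S : Finset Nat.Primes) {K : Type} [Field K] (A : Rep.{0} K GQ)

/-- The part of `sha₁ S A` that dies on restriction to `V`. -/
def shaLevel (V : Subgroup GQ) : Submodule K (H1 A) :=
  sha₁ S A ⊓ LinearMap.ker (LevelStr.resH1 A V)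

lemma shaLevel_le (V : Subgroup GQ) : shaLevel S A V ≤ sha₁ S A := inf_le_left

lemma shaLevel_mono {V V' : Subgroup GQ} (h : V' ≤ V) : shaLevel S A V ≤ shaLevel S A V' := by
  intro x hx
  exact ⟨hx.1, LevelStr.resH1_eq_zero_of_le h x hx.2⟩

/-- Every class of `sha₁` dies on some level below a given one. -/
theorem exists_level_mem_shaLevel {x : H1 A} (hx : x ∈ sha₁ S A) {U₀ : Subgroup GQ}
    (hU₀ : U₀ ∈ (globalLevels S).levels) :
    ∃ V ∈ (globalLevels S).levels, V ≤ U₀ ∧ x ∈ shaLevel S A V := by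
  have hx' : x ∈ continuousH1S S A := hx.1
  obtain ⟨U, hU, hUx⟩ := (mem_continuousH1S_iff_exists_res_eq_zero S A x).1 hx'
  obtain ⟨V, hV, hle⟩ := (globalLevels S).directed U hU U₀ hU₀
  exact ⟨V, hV, hle.trans inf_le_right,
    hx, LevelStr.resH1_eq_zero_of_le (hle.trans inf_le_left) x hUx⟩

/-- **Stabilisation.** If below some level `U₀` all `shaLevel S A V` are finite-dimensional of the
same dimension `d`, then `sha₁ S A` is finite-dimensional of dimension `d`. -/
theorem sha₁_finrank_of_stable {U₀ : Subgroup GQ} (hU₀ : U₀ ∈ (globalLevels S).levels) (d : ℕ)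
    (h : ∀ V ∈ (globalLevels S).levels, V ≤ U₀ →
      FiniteDimensional K ↥(shaLevel S A V) ∧ finrank K ↥(shaLevel S A V) = d) :
    FiniteDimensional K ↥(sha₁ S A) ∧ finrank K ↥(sha₁ S A) = d := by
  have key : sha₁ S A = shaLevel S A U₀ := by
    apply le_antisymm
    · intro x hx
      obtain ⟨V, hV, hVU, hxV⟩ := exists_level_mem_shaLevel S A hx hU₀
      obtain ⟨hfin, hd⟩ := h V hV hVU
      haveI := hfin
      have heq : shaLevel S A U₀ = shaLevel S A V :=
        Submodule.eq_of_le_of_finrank_eq (shaLevel_mono S A hVU)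
          ((h U₀ hU₀ le_rfl).2.trans hd.symm)
      rw [heq]
      exact hxV
    · exact shaLevel_le S A U₀
  rw [key]
  exact h U₀ hU₀ le_rfl

end Filtration

/-! ### Comparison with the finite level -/

section Compare

variable (S : Finset Nat.Primes) {p : ℕ} [Fact p.Prime]

/-- Finite groups have finite-dimensional `H¹` with finite-dimensional coefficients. -/
theorem finite_H1 {Γ : Type} [Group Γ] [Finite Γ] {k : Type} [Field k] (N : Rep.{0} k Γ)
    [FiniteDimensional k N] : FiniteDimensional k (H1 N) := by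
  haveI : FiniteDimensional k (Γ → N) := inferInstance
  haveI : FiniteDimensional k ↥(cocycles₁ N) := inferInstance
  refine Module.Finite.of_surjective (H1π N).hom ?_
  intro x
  induction x using H1_induction_on with | @h c =>
  exact ⟨c, rfl⟩

/-- image of the finite-level `Ш¹` under inflation -/
theorem map_infl₁_sha1Fin (hp2 : p ≠ 2) {Γ : Type} [Group Γ] {π : GQ →* Γ}
    (hπ : Function.Surjective π) (hS : IsSLevel S π) (N : Rep.{0} (ZMod p) Γ) :
    (sha1Fin S π N).map (infl₁ π N) = shaLevel S (Rep.res π N) π.ker := by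
  rw [shaLevel, ← range_infl₁_eq_ker_res hπ N]
  ext y
  constructor
  · rintro ⟨x, hx, rfl⟩
    exact ⟨(infl₁_mem_sha₁_iff S hp2 hS N x).2 hx, ⟨x, rfl⟩⟩
  · rintro ⟨hy, ⟨x, rfl⟩⟩
    exact ⟨x, (infl₁_mem_sha₁_iff S hp2 hS N x).1 hy, rfl⟩

/-- `shaLevel` at `ker π` has the dimension of the finite-level `Ш¹`. -/
theorem finrank_shaLevel_res (hp2 : p ≠ 2) {Γ : Type} [Group Γ] {π : GQ →* Γ}
    (hπ : Function.Surjective π) (hS : IsSLevel S π) (N : Rep.{0} (ZMod p) Γ) :
    finrank (ZMod p) ↥(shaLevel S (Rep.res π N) π.ker) = finrank (ZMod p) ↥(sha1Fin S π N) := by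
  rw [← map_infl₁_sha1Fin S hp2 hπ hS N]
  exact (Submodule.equivMapOfInjective (infl₁ π N) (infl₁_injective hπ N)
    (sha1Fin S π N)).finrank_eq.symm

/-- transport of `shaLevel` along an isomorphism of representations -/
def shaLevelEquiv {K : Type} [Field K] {A B : Rep.{0} K GQ} (e : A ≅ B) (V : Subgroup GQ) :
    ↥(shaLevel S A V) ≃ₗ[K] ↥(shaLevel S B V) :=
  LinearEquiv.ofSubmodules (ShaIso.H1Equiv e) (shaLevel S A V) (shaLevel S B V) (by
    apply le_antisymm
    · rintro _ ⟨x, hx, rfl⟩
      exact ⟨ShaIso.H1map_mem_sha₁ S e.hom hx.1,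
        ShaIso.res_H1map_eq_zero V.subtype e.hom x hx.2⟩
    · intro y hy
      refine ⟨(ShaIso.H1Equiv e).symm y, ⟨ShaIso.H1map_mem_sha₁ S e.inv hy.1, ?_⟩,
        (ShaIso.H1Equiv e).apply_symm_apply y⟩
      exact ShaIso.res_H1map_eq_zero V.subtype e.inv y hy.2)

/-- `shaLevel S A V` has the dimension of the finite-level `Ш¹` of the descent of `A` to
`G_ℚ ⧸ V`. -/
theorem finrank_shaLevel_eq (hp2 : p ≠ 2) (A : Rep.{0} (ZMod p) GQ) {V : Subgroup GQ} [V.Normal]
    (hV : V ∈ (globalLevels S).levels) (hVA : V ≤ A.ρ.ker) :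
    finrank (ZMod p) ↥(shaLevel S A V) =
      finrank (ZMod p)
        ↥(sha1Fin S (QuotientGroup.mk' V) (LevelModel.levelRep A V hVA)) := by
  obtain ⟨_, F, hF, hVF⟩ := hV
  have hS : IsSLevel S (QuotientGroup.mk' V) :=
    ⟨F, hF, fun s hs => (QuotientGroup.eq_one_iff s).2 (hVF ▸ hs)⟩
  have h1 := (shaLevelEquiv S (LevelModel.levelIso A V hVA) V).finrank_eq
  have h2 := finrank_shaLevel_res S hp2 (QuotientGroup.mk'_surjective V) hS
    (LevelModel.levelRep A V hVA)
  rw [QuotientGroup.ker_mk'] at h2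
  rw [h1, h2]

/-- **Stabilisation, finite-level form (consumed by step T6).** If below a level `U₀` acting
trivially on `A` all finite-level groups `sha1Fin` have the same dimension `d`, then `sha₁ S A`
is finite-dimensional of dimension `d`. -/
theorem sha₁_finrank_of_levels (hp2 : p ≠ 2) (A : Rep.{0} (ZMod p) GQ)
    [FiniteDimensional (ZMod p) A] {U₀ : Subgroup GQ} (hU₀ : U₀ ∈ (globalLevels S).levels)
    (hU₀A : U₀ ≤ A.ρ.ker) (d : ℕ)
    (h : ∀ (V : Subgroup GQ) (hV : V ∈ (globalLevels S).levels) (hVU : V ≤ U₀),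
      haveI := (globalLevels S).normal V hV
      finrank (ZMod p)
        ↥(sha1Fin S (QuotientGroup.mk' V) (LevelModel.levelRep A V (hVU.trans hU₀A))) = d) :
    FiniteDimensional (ZMod p) ↥(sha₁ S A) ∧ finrank (ZMod p) ↥(sha₁ S A) = d := by
  refine sha₁_finrank_of_stable S A hU₀ d fun V hV hVU => ?_
  haveI := (globalLevels S).normal V hV
  haveI := (globalLevels S).finiteIndex V hV
  haveI : Finite (GQ ⧸ V) := Subgroup.finite_quotient_of_finiteIndex
  have hVA : V ≤ A.ρ.ker := hVU.trans hU₀A
  have heq := finrank_shaLevel_eq S hp2 A hV hVA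
  refine ⟨?_, heq.trans (h V hV hVU)⟩
  -- finite-dimensionality: `shaLevel` is isomorphic to a subspace of `H¹` of a finite group
  obtain ⟨_, F, hF, hVF⟩ := hV
  have hS : IsSLevel S (QuotientGroup.mk' V) :=
    ⟨F, hF, fun s hs => (QuotientGroup.eq_one_iff s).2 (hVF ▸ hs)⟩
  let N := LevelModel.levelRep A V hVA
  haveI : FiniteDimensional (ZMod p) N := inferInstanceAs (FiniteDimensional (ZMod p) A)
  haveI : FiniteDimensional (ZMod p) (H1 N) := finite_H1 N
  have e1 := shaLevelEquiv S (LevelModel.levelIso A V hVA) V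
  have hmap := map_infl₁_sha1Fin S hp2 (QuotientGroup.mk'_surjective V) hS N
  rw [QuotientGroup.ker_mk'] at hmap
  have e2 := Submodule.equivMapOfInjective (infl₁ (QuotientGroup.mk' V) N)
    (infl₁_injective (QuotientGroup.mk'_surjective V) N) (sha1Fin S (QuotientGroup.mk' V) N)
  rw [hmap] at e2
  exact (e1.trans e2.symm).symm.finiteDimensional

end Compare

end Fermat.Agent.S55.ProfinLocal31.Stab
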