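/-
S55 / [PROFIN]-SHA (helper31), part 6 (generic linear algebra, Mathlib only): the dual of the common
kernel of a finite family of linear maps is the cokernel of the sum of the transposes.

For `f i : V →ₗ[K] W i` (`i` in a finite type, `K` a field):

* `sumDual f : (∀ i, Dual K (W i)) →ₗ[K] Dual K V`, `(φ_i) ↦ ∑ i, φ_i ∘ f i`;
* `range_sumDual : range (sumDual f) = (ker (LinearMap.pi f)).dualAnnihilator`;
* `mem_ker_pi_iff_forall_sumDual : x ∈ ker (pi f) ↔ ∀ φ, sumDual f φ x = 0`;
* `dualKerEquiv : (Dual K V ⧸ range (sumDual f)) ≃ₗ[K] Dual K (ker (pi f))`;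
* `finrank_ker_of_coker` : if the cokernel of `sumDual f` is finite-dimensional of dimension `d`,
  then so is `ker (pi f)`.

This is the `sha₂^*`-end of step T6: `sha₂ = ker (∏ loc_q)`, so `sha₂^* = coker (∑ loc_q^*)`.
-/
import Mathlib

set_option autoImplicit false

open Module

noncomputable section

namespace Fermat.Agent.S55.ProfinLocal31.DualKer

variable {K : Type*} [Field K] {V : Type*} [AddCommGroup V] [Module K V]
  {ι : Type*} [Fintype ι] {W : ι → Type*} [∀ i, AddCommGroup (W i)]
  [∀ i, Module K (W i)]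

/-- the sum of the transposes of a finite family of linear maps -/
def sumDual (f : ∀ i, V →ₗ[K] W i) : (∀ i, Dual K (W i)) →ₗ[K] Dual K V where
  toFun φ := ∑ i, (φ i).comp (f i)
  map_add' φ ψ := by
    simp only [Pi.add_apply, LinearMap.add_comp, Finset.sum_add_distrib]
  map_smul' c φ := by
    simp only [Pi.smul_apply, LinearMap.smul_comp, Finset.smul_sum, RingHom.id_apply]

lemma sumDual_apply (f : ∀ i, V →ₗ[K] W i) (φ : ∀ i, Dual K (W i)) (x : V) :
    sumDual f φ x = ∑ i, φ i (f i x) := by
  simp [sumDual, LinearMap.sum_apply]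

/-- `range (sumDual f)` is the annihilator of the common kernel. -/
theorem range_sumDual (f : ∀ i, V →ₗ[K] W i) :
    LinearMap.range (sumDual f) = (LinearMap.ker (LinearMap.pi f)).dualAnnihilator := by
  classical
  rw [← LinearMap.range_dualMap_eq_dualAnnihilator_ker]
  apply le_antisymm
  · rintro _ ⟨φ, rfl⟩
    refine ⟨∑ i, (φ i).comp (LinearMap.proj i), ?_⟩
    refine LinearMap.ext fun x => ?_
    rw [LinearMap.dualMap_apply, sumDual_apply, LinearMap.sum_apply]
    rfl
  · rintro _ ⟨ψ, rfl⟩
    refine ⟨fun i => ψ.comp (LinearMap.single K W i), ?_⟩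
    refine LinearMap.ext fun x => ?_
    rw [LinearMap.dualMap_apply, sumDual_apply]
    have hx : LinearMap.pi f x = ∑ i, Pi.single i (LinearMap.pi f x i) :=
      (Finset.univ_sum_single (LinearMap.pi f x)).symm
    conv_rhs => rw [hx, map_sum]
    rfl

/-- A vector lies in the common kernel iff it is killed by all sums of transposes. -/
theorem mem_ker_pi_iff_forall_sumDual (f : ∀ i, V →ₗ[K] W i) (x : V) :
    x ∈ LinearMap.ker (LinearMap.pi f) ↔ ∀ φ : (∀ i, Dual K (W i)), sumDual f φ x = 0 := by
  constructor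
  · intro hx φ
    have : sumDual f φ ∈ (LinearMap.ker (LinearMap.pi f)).dualAnnihilator := by
      rw [← range_sumDual]; exact ⟨φ, rfl⟩
    exact (Submodule.mem_dualAnnihilator _).1 this x hx
  · intro h
    rw [← Subspace.dualAnnihilator_dualCoannihilator_eq (W := LinearMap.ker (LinearMap.pi f)),
      Submodule.mem_dualCoannihilator]
    intro ψ hψ
    rw [← range_sumDual] at hψ
    obtain ⟨φ, rfl⟩ := hψ
    exact h φ

/-- **The dual of the common kernel** is the cokernel of the sum of the transposes. -/
def dualKerEquiv (f : ∀ i, V →ₗ[K] W i) :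
    (Dual K V ⧸ LinearMap.range (sumDual f)) ≃ₗ[K] Dual K ↥(LinearMap.ker (LinearMap.pi f)) :=
  (Submodule.quotEquivOfEq _ _ (range_sumDual f)).trans
    (Subspace.quotAnnihilatorEquiv (LinearMap.ker (LinearMap.pi f)))

/-- If the cokernel of `sumDual f` is finite-dimensional of dimension `d`, then so is the common
kernel. -/
theorem finrank_ker_of_coker (f : ∀ i, V →ₗ[K] W i) (d : ℕ)
    (hfin : FiniteDimensional K (Dual K V ⧸ LinearMap.range (sumDual f)))
    (hd : finrank K (Dual K V ⧸ LinearMap.range (sumDual f)) = d) :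
    FiniteDimensional K ↥(LinearMap.ker (LinearMap.pi f)) ∧
      finrank K ↥(LinearMap.ker (LinearMap.pi f)) = d := by
  have e := dualKerEquiv f
  haveI : FiniteDimensional K (Dual K ↥(LinearMap.ker (LinearMap.pi f))) := e.finiteDimensional
  have hfin₂ : FiniteDimensional K ↥(LinearMap.ker (LinearMap.pi f)) :=
    (Module.finite_dual_iff K).1 inferInstance
  refine ⟨hfin₂, ?_⟩
  rw [← Subspace.dual_finrank_eq, ← e.finrank_eq, hd]

/-- Conversely, a finite-dimensional common kernel of dimension `d` gives a cokernel of dimension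
`d`. -/
theorem finrank_coker_of_ker (f : ∀ i, V →ₗ[K] W i)
    [FiniteDimensional K ↥(LinearMap.ker (LinearMap.pi f))] :
    FiniteDimensional K (Dual K V ⧸ LinearMap.range (sumDual f)) ∧
      finrank K (Dual K V ⧸ LinearMap.range (sumDual f)) =
        finrank K ↥(LinearMap.ker (LinearMap.pi f)) := by
  have e := dualKerEquiv f
  exact ⟨e.symm.finiteDimensional, e.finrank_eq.trans Subspace.dual_finrank_eq⟩

end Fermat.Agent.S55.ProfinLocal31.DualKer
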