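/-
S55 (helper31): the plug `Contract34.SRepStatement` — the hypotheses `hsm`, `hMur` of the frozen
statement make `M` an `S`-representation (`ker M.ρ` is itself an `S`-level).
-/
import Fermat.Agent.S55.Contract34
import Fermat.Agent.S55.ProfinLocal31.LevelModel

set_option autoImplicit false

open CategoryTheory Module groupCohomology ExtCitation

namespace Fermat.Agent.S55.ProfinLocal31.SRep

/-- `Contract34.SRepStatement` holds. -/
theorem sRepStatement : Fermat.Agent.S55.Contract34.SRepStatement := by
  intro p _ S M _ hsm hMur
  exact ⟨M.ρ.ker, LevelModel.ker_mem_globalLevels S M hsm hMur, fun s hs => MonoidHom.mem_ker.1 hs⟩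

end Fermat.Agent.S55.ProfinLocal31.SRep
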