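/-
S55 / [PROFIN]-SHA (helper31), part 7: the dual of `sha₂` (the `sha₂^*`-end of step T6), Prelude
shapes.

For `p` odd, `sha₂ S M = ker (locFin S M)` with `locFin` the total localisation at the FINITE places
`q ∈ S`, hence (vector spaces over `𝔽_p`)

  `(sha₂ S M)^* ≃ H²(G_S, M)^* ⧸ range (locDual S M)`,

where `locDual S M : (∏_{q ∈ S} H²(G_q, M)^*) → H²(G_S, M)^*`, `(φ_q) ↦ ∑_q φ_q ∘ loc_q`.
Consequently, if that cokernel is finite-dimensional of dimension `d`, so is `sha₂ S M`.
The generic linear algebra is `ProfinLocal31.DualKer`.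

ELABORATION NOTE for consumers: instantiate the generic lemmas of `DualKer` at quotient types with
`have h := DualKer.lemma (K := _) (V := _) (W := fun q => _) f; exact h` (elaborating against the
expected type first leaves the instance arguments unassigned and explodes).
-/
import Mathlib
import Fermat.Prelude.Def_GroupCohomology_ContinuousUnramified
import Fermat.Agent.S55.ProfinLocal31.Sha
import Fermat.Agent.S55.ProfinLocal31.DualKer

set_option autoImplicit false
set_option maxHeartbeats 400000

open CategoryTheory groupCohomology ExtCitation Module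

noncomputable section

namespace Fermat.Agent.S55.ProfinLocal31.ShaDual

/-- The absolute Galois group of `ℚ`. -/
abbrev GQ : Type := AlgebraicClosure ℚ ≃ₐ[ℚ] AlgebraicClosure ℚ

variable {p : ℕ} [Fact p.Prime] (S : Finset Nat.Primes) (M : Rep.{0} (ZMod p) GQ)

/-- the local `H²` at the finite place `q` (Prelude shape) -/
abbrev locH2 (q : ↥S) : Type :=
  continuousH2 (primeLocalToGlobal q.1) (Rep.res (primeLocalToGlobal q.1) M)

/-- the localisation maps at the finite places of `S`, as a family -/
def locFam (q : ↥S) : continuousH2S S M →ₗ[ZMod p] locH2 S M q :=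
  locRes₂S S M (primeLocalToGlobal q.1)

@[simp] lemma locFam_apply (q : ↥S) (x : continuousH2S S M) :
    locFam S M q x = locRes₂S S M (primeLocalToGlobal q.1) x := rfl

/-- Total localisation at the finite places of `S`. -/
def locFin : continuousH2S S M →ₗ[ZMod p] (∀ q : ↥S, locH2 S M q) :=
  LinearMap.pi (R := ZMod p) (M₂ := continuousH2S S M) (φ := fun q : ↥S => locH2 S M q)
    (locFam S M)

lemma locFin_apply (x : continuousH2S S M) (q : ↥S) :
    locFin S M x q = locRes₂S S M (primeLocalToGlobal q.1) x := rfl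

theorem mem_ker_locFin (x : continuousH2S S M) :
    x ∈ LinearMap.ker (locFin S M) ↔ ∀ q : ↥S, locRes₂S S M (primeLocalToGlobal q.1) x = 0 := by
  rw [LinearMap.mem_ker]
  constructor
  · intro h q
    exact congrFun h q
  · intro h
    funext q
    exact h q

/-- For `p` odd, `sha₂` is the kernel of the localisation at the finite places. -/
theorem sha₂_eq_ker_locFin (hp2 : p ≠ 2) : sha₂ S M = LinearMap.ker (locFin S M) := by
  refine Submodule.ext fun x => ?_
  rw [mem_ker_locFin]
  exact Sha.mem_sha₂_iff S hp2 M x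

/-- The sum of the transposes of the localisation maps. -/
def locDual :
    (∀ q : ↥S, Dual (ZMod p) (locH2 S M q)) →ₗ[ZMod p] Dual (ZMod p) (continuousH2S S M) :=
  DualKer.sumDual (K := ZMod p) (V := continuousH2S S M) (W := fun q : ↥S => locH2 S M q)
    (locFam S M)

lemma locDual_apply (φ : ∀ q : ↥S, Dual (ZMod p) (locH2 S M q)) (x : continuousH2S S M) :
    locDual S M φ x = ∑ q : ↥S, φ q (locRes₂S S M (primeLocalToGlobal q.1) x) := by
  have h := DualKer.sumDual_apply (K := ZMod p) (V := continuousH2S S M)
    (W := fun q : ↥S => locH2 S M q) (locFam S M) φ x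
  exact h

theorem range_locDual_eq_ker :
    LinearMap.range (locDual S M) = (LinearMap.ker (locFin S M)).dualAnnihilator := by
  have h := DualKer.range_sumDual (K := ZMod p) (V := continuousH2S S M)
    (W := fun q : ↥S => locH2 S M q) (locFam S M)
  exact h

/-- For `p` odd: `range locDual` is the annihilator of `sha₂`. -/
theorem range_locDual_eq_dualAnnihilator (hp2 : p ≠ 2) :
    LinearMap.range (locDual S M) = (sha₂ S M).dualAnnihilator := by
  rw [sha₂_eq_ker_locFin S M hp2]
  exact range_locDual_eq_ker S M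

/-- The pairing shape of `PTAssembly84.Plug.s55_of_assembly` (`hpair`): a class lies in `sha₂` iff
it is killed by all `locDual φ`. -/
theorem mem_sha₂_iff_forall_locDual (hp2 : p ≠ 2) (x : continuousH2S S M) :
    x ∈ sha₂ S M ↔ ∀ φ : (∀ q : ↥S, Dual (ZMod p) (locH2 S M q)), locDual S M φ x = 0 := by
  rw [sha₂_eq_ker_locFin S M hp2]
  have h := DualKer.mem_ker_pi_iff_forall_sumDual (K := ZMod p) (V := continuousH2S S M)
    (W := fun q : ↥S => locH2 S M q) (locFam S M) x
  exact h

/-- **The dual of `sha₂`** is the cokernel of `locDual`. -/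
def dualSha₂Equiv (hp2 : p ≠ 2) :
    (Dual (ZMod p) (continuousH2S S M) ⧸ LinearMap.range (locDual S M)) ≃ₗ[ZMod p]
      Dual (ZMod p) ↥(sha₂ S M) := by
  have e := DualKer.dualKerEquiv (K := ZMod p) (V := continuousH2S S M)
    (W := fun q : ↥S => locH2 S M q) (locFam S M)
  have h : sha₂ S M = LinearMap.ker (LinearMap.pi (R := ZMod p) (M₂ := continuousH2S S M)
      (φ := fun q : ↥S => locH2 S M q) (locFam S M)) := sha₂_eq_ker_locFin S M hp2
  exact e.trans (LinearEquiv.ofEq _ _ h).dualMap

/-- If the cokernel of `locDual` is finite-dimensional of dimension `d`, then so is `sha₂ S M`. -/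
theorem sha₂_finrank_of_coker (hp2 : p ≠ 2) (d : ℕ)
    (hfin : FiniteDimensional (ZMod p)
      (Dual (ZMod p) (continuousH2S S M) ⧸ LinearMap.range (locDual S M)))
    (hd : finrank (ZMod p)
      (Dual (ZMod p) (continuousH2S S M) ⧸ LinearMap.range (locDual S M)) = d) :
    FiniteDimensional (ZMod p) ↥(sha₂ S M) ∧ finrank (ZMod p) ↥(sha₂ S M) = d := by
  have e := dualSha₂Equiv S M hp2
  haveI : FiniteDimensional (ZMod p) (Dual (ZMod p) ↥(sha₂ S M)) := e.finiteDimensional
  have hfin₂ : FiniteDimensional (ZMod p) ↥(sha₂ S M) :=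
    (Module.finite_dual_iff (ZMod p)).1 inferInstance
  refine ⟨hfin₂, ?_⟩
  rw [← Subspace.dual_finrank_eq, ← e.finrank_eq, hd]

/-- Conversely: if `sha₂ S M` is finite-dimensional, the cokernel of `locDual` is finite-dimensional
of the same dimension. -/
theorem finrank_coker_locDual (hp2 : p ≠ 2) [hfin : FiniteDimensional (ZMod p) ↥(sha₂ S M)] :
    FiniteDimensional (ZMod p)
        (Dual (ZMod p) (continuousH2S S M) ⧸ LinearMap.range (locDual S M)) ∧
      finrank (ZMod p) (Dual (ZMod p) (continuousH2S S M) ⧸ LinearMap.range (locDual S M)) =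
        finrank (ZMod p) ↥(sha₂ S M) := by
  have e := dualSha₂Equiv S M hp2
  exact ⟨e.symm.finiteDimensional, e.finrank_eq.trans Subspace.dual_finrank_eq⟩

end Fermat.Agent.S55.ProfinLocal31.ShaDual
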