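/-
S55 / [PROFIN]-SHA (helper31), part 2a: `sha₁`, `sha₂` in pure `G_ℚ`-language (`p` odd).

Combining part 1 (the archimedean index drops out), helper26's local criteria
(`ProfinLocal26.Local`) and helper80's `range_localGaloisToGlobal` (the image of the local Galois
group is the decomposition group), membership in `sha₁` / `sha₂` becomes a condition on
level-constant cochains of `G_ℚ` restricted to the decomposition groups `decomp q`, `q ∈ S`:

* `localDensity q` : helper26's named input `LocalDensity q`, unconditionally;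
* `continuousH2Sπ_mem_sha₂_iff` : the class of an `S`-level `2`-cocycle `f` lies in `sha₂ S M` iff
  for every `q ∈ S` there is a level-constant `b : G_ℚ → M` with `f = d b` on `decomp q`;
* `H1π_mem_sha₁_iff` : the class of an `S`-level `1`-cocycle `c` lies in `sha₁ S A` iff for every
  `q ∈ S` there is `m` with `c σ = σ m - m` on `decomp q`;
* `mem_sha₁_iff_exists`, `mem_sha₂_iff_exists` : the same for arbitrary elements.
-/
import Mathlib
import Fermat.Prelude.Def_GroupCohomology_ContinuousUnramified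
import Fermat.Agent.S55.ProfinLocal31.Sha
import Fermat.Agent.S55.ProfinLocal26.Local
import Fermat.Agent.S55.ProfinLoc80.Decomp

set_option autoImplicit false

open CategoryTheory groupCohomology ExtCitation

noncomputable section

namespace Fermat.Agent.S55.ProfinLocal31.ShaGQ

open Fermat.Agent.S55.ProfinLocal26 Fermat.Agent.S55.ProfinLocal26.Abs

/-- helper26's density input holds unconditionally (helper80: the image of the local Galois group
is the whole decomposition group). -/
theorem localDensity (q : Nat.Primes) : Local.LocalDensity q := by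
  refine Local.localDensity_of_range_eq q ?_
  letI : Fact (q : ℕ).Prime := ⟨q.2⟩
  exact Fermat.Agent.S55.ProfinLoc80.range_localGaloisToGlobal (q : ℕ)

variable {p : ℕ} [Fact p.Prime] (S : Finset Nat.Primes)

/-- `sha₂` in `G_ℚ`-language: the class of an `S`-level `2`-cocycle is locally trivial at all places
iff on each decomposition group `decomp q`, `q ∈ S`, it is the coboundary of a level-constant
`1`-cochain of `G_ℚ`. -/
theorem continuousH2Sπ_mem_sha₂_iff (hp2 : p ≠ 2) (M : Rep.{0} (ZMod p) GQ)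
    (hM : IsUniformlySmooth M) (f : ↥(levelCocyclesS₂ S M)) :
    continuousH2Sπ S M f ∈ sha₂ S M ↔
      ∀ q ∈ S, ∃ b : GQ → M, IsLevelConstant₁ (MonoidHom.id GQ) b ∧
        ∀ σ ∈ Local.decomp q, ∀ σ' ∈ Local.decomp q,
          (f : GQ × GQ → M) (σ, σ') = M.ρ σ (b σ') - b (σ * σ') + b σ := by
  rw [Sha.mem_sha₂_iff S hp2 M]
  constructor
  · intro h q hq
    exact (Local.locRes₂S_eq_zero_iff S q (localDensity q) M hM f).1 (h ⟨q, hq⟩)
  · intro h q
    exact (Local.locRes₂S_eq_zero_iff S q.1 (localDensity q.1) M hM f).2 (h q.1 q.2)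

/-- `sha₁` in `G_ℚ`-language: the class of an `S`-level `1`-cocycle lies in `sha₁` iff it is a
coboundary on each decomposition group `decomp q`, `q ∈ S`. -/
theorem H1π_mem_sha₁_iff (hp2 : p ≠ 2) (A : Rep.{0} (ZMod p) GQ) (hsm : IsSmooth A)
    (c : cocycles₁ A) (hc : IsLevelConstantS₁ S c) :
    (H1π A).hom c ∈ sha₁ S A ↔
      ∀ q ∈ S, ∃ m : A, ∀ σ ∈ Local.decomp q, c σ = A.ρ σ m - m := by
  rw [Sha.mem_sha₁_iff S hp2 A]
  have hmem : (H1π A).hom c ∈ continuousH1S S A :=
    (mem_continuousH1S_iff S A _).2 ⟨c, hc, rfl⟩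
  constructor
  · rintro ⟨_, h⟩ q hq
    exact (Local.locRes_H1π_eq_zero_iff_of_levelS S ⟨q, hq⟩ (localDensity q) A hsm c hc).1
      (h ⟨q, hq⟩)
  · intro h
    refine ⟨hmem, fun q => ?_⟩
    exact (Local.locRes_H1π_eq_zero_iff_of_levelS S q (localDensity q.1) A hsm c hc).2
      (h q.1 q.2)

/-- Element form of `H1π_mem_sha₁_iff`. -/
theorem mem_sha₁_iff_exists (hp2 : p ≠ 2) (A : Rep.{0} (ZMod p) GQ) (hsm : IsSmooth A)
    (x : H1 A) :
    x ∈ sha₁ S A ↔ ∃ c : cocycles₁ A, IsLevelConstantS₁ S c ∧ (H1π A).hom c = x ∧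
      ∀ q ∈ S, ∃ m : A, ∀ σ ∈ Local.decomp q, c σ = A.ρ σ m - m := by
  constructor
  · intro hx
    have hx' := hx
    rw [sha₁, Submodule.mem_inf] at hx'
    obtain ⟨c, hc, rfl⟩ := (mem_continuousH1S_iff S A x).1 hx'.1
    exact ⟨c, hc, rfl, (H1π_mem_sha₁_iff S hp2 A hsm c hc).1 hx⟩
  · rintro ⟨c, hc, rfl, h⟩
    exact (H1π_mem_sha₁_iff S hp2 A hsm c hc).2 h

/-- Element form of `continuousH2Sπ_mem_sha₂_iff`. -/
theorem mem_sha₂_iff_exists (hp2 : p ≠ 2) (M : Rep.{0} (ZMod p) GQ) (hM : IsUniformlySmooth M)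
    (x : continuousH2S S M) :
    x ∈ sha₂ S M ↔ ∃ f : ↥(levelCocyclesS₂ S M), continuousH2Sπ S M f = x ∧
      ∀ q ∈ S, ∃ b : GQ → M, IsLevelConstant₁ (MonoidHom.id GQ) b ∧
        ∀ σ ∈ Local.decomp q, ∀ σ' ∈ Local.decomp q,
          (f : GQ × GQ → M) (σ, σ') = M.ρ σ (b σ') - b (σ * σ') + b σ := by
  constructor
  · intro hx
    obtain ⟨f, rfl⟩ := Submodule.mkQ_surjective _ x
    exact ⟨f, rfl, (continuousH2Sπ_mem_sha₂_iff S hp2 M hM f).1 hx⟩
  · rintro ⟨f, rfl, h⟩
    exact (continuousH2Sπ_mem_sha₂_iff S hp2 M hM f).2 h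

/-- The hypothesis `hsm` of the frozen S55 statement is `IsSmooth`; with finite dimensionality it
gives `IsUniformlySmooth`. (Convenience restatement of helper26's lemma.) -/
theorem isUniformlySmooth_of_hsm (M : Rep.{0} (ZMod p) GQ) [FiniteDimensional (ZMod p) M]
    (hsm : ∀ m : M, ∃ F : IntermediateField ℚ (AlgebraicClosure ℚ), FiniteDimensional ℚ F ∧
      ∀ s ∈ F.fixingSubgroup, M.ρ s m = m) : IsUniformlySmooth M :=
  isUniformlySmooth_of_finite hsm

end Fermat.Agent.S55.ProfinLocal31.ShaGQ
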