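/-
S55 / [PROFIN]-SHA (helper31), part 8: `sha₂` of a module trivialised by a level `V`, in the
vocabulary of helper55's `EW55.Inst` (piece (b) of `EW55/Count.lean`).

For `p` odd, `V` a normal subgroup of `G_ℚ` with `V ≤ ker M.ρ` and `N := levelRep M V hM` the descent
of `M` to `Γ = G_ℚ ⧸ V`:

  `sha₂ S M ≃ ⨅ q : S, ker (Inst.locM S V q N)`    (`sha₂EquivInfKer`).

Steps: `ShaIso.sha₂Equiv` along `LevelModel.levelIso` (Prelude shapes), `Profin15.sha₂EquivF`
(Prelude → level cohomology, finite places only since `p` is odd), and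
`ker (locM S V q N) = ker (locq p S q (infl N))` because `locM` is `locq` followed by the identity
isomorphism `H²(G_q, res infl N) → H²(G_q, infl_q res N)`.
-/
import Fermat.Agent.S55.EW55.Inst
import Fermat.Agent.S55.Profin15.ShaFinite
import Fermat.Agent.S55.ProfinLocal31.ShaIso

set_option autoImplicit false
set_option maxHeartbeats 400000

open CategoryTheory Module groupCohomology ExtCitation
open Fermat.Agent.S55.Profin15
open Fermat.Agent.Lib.FrobeniusExists (Qb GQ)
open Fermat.Agent.S55.Contract34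
open Fermat.Agent.S55.Profin15.Plug
open Fermat.Agent.S55.ProfinLocal31

noncomputable section

namespace Fermat.Agent.S55.ProfinLocal31.ShaLevelKer

open Fermat.Agent.S55.EW55.Inst

variable {p : ℕ} [Fact p.Prime] (S : Finset Nat.Primes) (V : Subgroup GQ) [V.Normal]

/-- the identity `infl_q (res_{D_q} N) → res_{G_q} (infl N)` (inverse of `Inst.idRes`) -/
def idRes' (q : Nat.Primes) (N : Rep.{0} (ZMod p) (GQ ⧸ V)) :
    Rep.res (piQ V q) (Rep.res (D V q).subtype N) →ₗ[ZMod p]
      Rep.res (primeLocalToGlobal q) (Rep.res (QuotientGroup.mk' V) N) :=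
  LinearMap.id

lemma idRes'_equivariant (q : Nat.Primes) (N : Rep.{0} (ZMod p) (GQ ⧸ V)) :
    LevelStr.IsEquivariant (idRes' V q N) :=
  fun _ _ => rfl

/-- `H²(idRes)` has a left inverse. -/
lemma H2map_idRes'_H2map_idRes (q : Nat.Primes) (N : Rep.{0} (ZMod p) (GQ ⧸ V))
    (x : (pullLevels (primeLocalToGlobal q)).H2
      (Rep.res (primeLocalToGlobal q) (Rep.res (QuotientGroup.mk' V) N))) :
    (pullLevels (primeLocalToGlobal q)).H2map (idRes' V q N) (idRes'_equivariant V q N)
      ((pullLevels (primeLocalToGlobal q)).H2map (idRes V q N) (idRes_equivariant V q N) x) = x := by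
  obtain ⟨c, rfl⟩ := Submodule.Quotient.mk_surjective _ x
  rfl

lemma H2map_idRes_injective (q : Nat.Primes) (N : Rep.{0} (ZMod p) (GQ ⧸ V)) :
    Function.Injective
      ((pullLevels (primeLocalToGlobal q)).H2map (idRes V q N) (idRes_equivariant V q N)) :=
  Function.LeftInverse.injective (H2map_idRes'_H2map_idRes V q N)

/-- `locM` vanishes exactly where the localisation of the inflated module vanishes. -/
theorem locM_eq_zero_iff (q : ↥S) (N : Rep.{0} (ZMod p) (GQ ⧸ V))
    (x : (globalLevels S).H2 (Rep.res (QuotientGroup.mk' V) N)) :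
    locM S V q N x = 0 ↔ locq p S q.1 (Rep.res (QuotientGroup.mk' V) N) x = 0 := by
  constructor
  · intro h
    apply H2map_idRes_injective V q.1 N
    rw [map_zero]
    exact h
  · intro h
    show (pullLevels (primeLocalToGlobal q.1)).H2map (idRes V q.1 N) (idRes_equivariant V q.1 N)
      (locq p S q.1 (Rep.res (QuotientGroup.mk' V) N) x) = 0
    rw [h, map_zero]

theorem ker_locM (q : ↥S) (N : Rep.{0} (ZMod p) (GQ ⧸ V)) :
    LinearMap.ker (locM S V q N) =
      LinearMap.ker (locq p S q.1 (Rep.res (QuotientGroup.mk' V) N)) := by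
  ext x
  rw [LinearMap.mem_ker, LinearMap.mem_ker]
  exact locM_eq_zero_iff S V q N x

/-- The common kernel of the `locM` is the finite-places `Sha²` of the inflated module. -/
theorem iInf_ker_locM (N : Rep.{0} (ZMod p) (GQ ⧸ V)) :
    (⨅ q : ↥S, LinearMap.ker (locM S V q N)) = ShaF₂ S (Rep.res (QuotientGroup.mk' V) N) := by
  ext x
  rw [mem_ShaF₂_iff, Submodule.mem_iInf]
  refine forall_congr' fun q => ?_
  rw [LinearMap.mem_ker]
  exact locM_eq_zero_iff S V q N x

/-- **`sha₂` of the inflated module** `infl N`, `N` a representation of `G_ℚ ⧸ V`. -/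
def sha₂InflEquiv (hp2 : p ≠ 2) (N : Rep.{0} (ZMod p) (GQ ⧸ V)) :
    ↥(sha₂ S (Rep.res (QuotientGroup.mk' V) N)) ≃ₗ[ZMod p]
      ↥(⨅ q : ↥S, LinearMap.ker (locM S V q N)) :=
  (sha₂EquivF S hp2 (Rep.res (QuotientGroup.mk' V) N)).trans
    (LinearEquiv.ofEq _ _ (iInf_ker_locM S V N).symm)

/-- **`sha₂ S M` for `M` trivialised by `V`**, in the vocabulary of `EW55.Inst`. -/
def sha₂EquivInfKer (hp2 : p ≠ 2) (M : Rep.{0} (ZMod p) GQ) (hM : V ≤ M.ρ.ker) :
    ↥(sha₂ S M) ≃ₗ[ZMod p]
      ↥(⨅ q : ↥S, LinearMap.ker (locM S V q (LevelModel.levelRep M V hM))) :=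
  (ShaIso.sha₂Equiv S (LevelModel.levelIso M V hM)).trans
    (sha₂InflEquiv S V hp2 (LevelModel.levelRep M V hM))

/-- finiteness and dimension of `sha₂ S M` read off from the common kernel of the `locM` -/
theorem sha₂_finrank_of_infKer (hp2 : p ≠ 2) (M : Rep.{0} (ZMod p) GQ) (hM : V ≤ M.ρ.ker)
    (hfin : Module.Finite (ZMod p)
      ↥(⨅ q : ↥S, LinearMap.ker (locM S V q (LevelModel.levelRep M V hM)))) :
    FiniteDimensional (ZMod p) ↥(sha₂ S M) ∧
      finrank (ZMod p) ↥(sha₂ S M) =
        finrank (ZMod p)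
          ↥(⨅ q : ↥S, LinearMap.ker (locM S V q (LevelModel.levelRep M V hM))) :=
  ⟨(sha₂EquivInfKer S V hp2 M hM).symm.finiteDimensional,
    (sha₂EquivInfKer S V hp2 M hM).finrank_eq⟩

end Fermat.Agent.S55.ProfinLocal31.ShaLevelKer
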