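/-
S55 / [PROFIN]-SHA (helper31), part 5: BOUNDED STABILISATION of `sha₁` along the levels
(piece (W6)(a) of helper55's W55 binder plan).

* `exists_stable_shaLevel` : if below a level `U₀` all `shaLevel S A V` are finite-dimensional of
  dimension `≤ B`, there is a level `V₁ ≤ U₀` with `sha₁ S A = shaLevel S A V₁`, and
  `shaLevel S A V = shaLevel S A V₁` for all levels `V ≤ V₁`;
* `finiteDimensional_shaLevel` : `shaLevel S A V` is finite-dimensional (`A` finite-dimensional,
  `V` a level acting trivially);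
* `exists_stable_level` : **the finite-level form**: if the dimensions of the finite-level groups
  `sha1Fin S (mk' V) (levelRep A V _)` (`V ≤ U₀` a level) are bounded by `B`, there is a level
  `V₁ ≤ U₀` such that `sha₁ S A` is finite-dimensional and, for all levels `V ≤ V₁`,
  `finrank (sha1Fin S (mk' V) (levelRep A V _)) = finrank (sha₁ S A)`.
-/
import Mathlib
import Fermat.Prelude.Def_GroupCohomology_ContinuousUnramified
import Fermat.Agent.S55.ProfinLocal31.Stab

set_option autoImplicit false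
set_option linter.style.haveILetI false

open CategoryTheory groupCohomology ExtCitation Module

noncomputable section

namespace Fermat.Agent.S55.ProfinLocal31.Stab2

open Fermat.Agent.S55.ProfinLocal26.Abs Fermat.Agent.S55.Profin15
open ShaFin Stab

/-! ### Abstract bounded stabilisation -/

section Filtration

variable (S : Finset Nat.Primes) {K : Type} [Field K] (A : Rep.{0} K GQ)

/-- **Bounded stabilisation.** If below a level `U₀` all `shaLevel S A V` are finite-dimensional of
dimension at most `B`, the filtration is stationary below some level `V₁ ≤ U₀`, and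
`sha₁ S A = shaLevel S A V₁`. -/
theorem exists_stable_shaLevel {U₀ : Subgroup GQ} (hU₀ : U₀ ∈ (globalLevels S).levels) (B : ℕ)
    (h : ∀ V ∈ (globalLevels S).levels, V ≤ U₀ →
      FiniteDimensional K ↥(shaLevel S A V) ∧ finrank K ↥(shaLevel S A V) ≤ B) :
    ∃ V₁ ∈ (globalLevels S).levels, V₁ ≤ U₀ ∧ sha₁ S A = shaLevel S A V₁ ∧
      ∀ V ∈ (globalLevels S).levels, V ≤ V₁ → shaLevel S A V = shaLevel S A V₁ := by
  classical
  -- the set of dimensions is nonempty and bounded: take a level of maximal dimension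
  let P : ℕ → Prop := fun n => ∃ V ∈ (globalLevels S).levels, V ≤ U₀ ∧
    finrank K ↥(shaLevel S A V) = n
  have hP : ∃ n, P n := ⟨_, U₀, hU₀, le_rfl, rfl⟩
  have hB : ∀ n, P n → n ≤ B := by
    rintro n ⟨V, hV, hVU, rfl⟩
    exact (h V hV hVU).2
  obtain ⟨V₁, hV₁, hV₁U, hmax⟩ : ∃ V₁ ∈ (globalLevels S).levels, V₁ ≤ U₀ ∧
      ∀ V ∈ (globalLevels S).levels, V ≤ U₀ →
        finrank K ↥(shaLevel S A V) ≤ finrank K ↥(shaLevel S A V₁) := by
    obtain ⟨V₁, hV₁, hV₁U, hd⟩ := Nat.findGreatest_spec (P := P) (hB _ hP.choose_spec)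
      hP.choose_spec
    refine ⟨V₁, hV₁, hV₁U, fun V hV hVU => ?_⟩
    rw [hd]
    exact Nat.le_findGreatest (hB _ ⟨V, hV, hVU, rfl⟩) ⟨V, hV, hVU, rfl⟩
  have hstat : ∀ V ∈ (globalLevels S).levels, V ≤ V₁ → shaLevel S A V = shaLevel S A V₁ := by
    intro V hV hVV
    haveI := (h V hV (hVV.trans hV₁U)).1
    exact (Submodule.eq_of_le_of_finrank_le (shaLevel_mono S A hVV)
      (hmax V hV (hVV.trans hV₁U))).symm
  refine ⟨V₁, hV₁, hV₁U, ?_, hstat⟩
  apply le_antisymm
  · intro x hx
    obtain ⟨V, hV, hVV, hxV⟩ := exists_level_mem_shaLevel S A hx hV₁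
    rw [← hstat V hV hVV]
    exact hxV
  · exact shaLevel_le S A V₁

end Filtration

/-! ### The finite-level form -/

section Compare

variable (S : Finset Nat.Primes) {p : ℕ} [Fact p.Prime]

/-- `shaLevel S A V` is finite-dimensional for `A` finite-dimensional and `V` a level acting
trivially on `A`: it embeds into `H¹` of the finite group `G_ℚ ⧸ V`. -/
theorem finiteDimensional_shaLevel (hp2 : p ≠ 2) (A : Rep.{0} (ZMod p) GQ)
    [FiniteDimensional (ZMod p) A] {V : Subgroup GQ} [V.Normal]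
    (hV : V ∈ (globalLevels S).levels) (hVA : V ≤ A.ρ.ker) :
    FiniteDimensional (ZMod p) ↥(shaLevel S A V) := by
  haveI := (globalLevels S).finiteIndex V hV
  haveI : Finite (GQ ⧸ V) := Subgroup.finite_quotient_of_finiteIndex
  obtain ⟨_, F, hF, hVF⟩ := hV
  have hS : IsSLevel S (QuotientGroup.mk' V) :=
    ⟨F, hF, fun s hs => (QuotientGroup.eq_one_iff s).2 (hVF ▸ hs)⟩
  let N := LevelModel.levelRep A V hVA
  haveI : FiniteDimensional (ZMod p) N := inferInstanceAs (FiniteDimensional (ZMod p) A)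
  haveI : FiniteDimensional (ZMod p) (H1 N) := finite_H1 N
  have e1 := shaLevelEquiv S (LevelModel.levelIso A V hVA) V
  have hmap := map_infl₁_sha1Fin S hp2 (QuotientGroup.mk'_surjective V) hS N
  rw [QuotientGroup.ker_mk'] at hmap
  have e2 := Submodule.equivMapOfInjective (infl₁ (QuotientGroup.mk' V) N)
    (infl₁_injective (QuotientGroup.mk'_surjective V) N) (sha1Fin S (QuotientGroup.mk' V) N)
  rw [hmap] at e2
  exact (e1.trans e2.symm).symm.finiteDimensional

/-- **Bounded stabilisation, finite-level form (piece (W6)(a) of the W55 plan).** If below a level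
`U₀` acting trivially on `A` the dimensions of the finite-level groups `sha1Fin` are bounded by
`B`, then there is a level `V₁ ≤ U₀` such that `sha₁ S A` is finite-dimensional and all the
finite-level groups at levels `V ≤ V₁` have the dimension of `sha₁ S A`. -/
theorem exists_stable_level (hp2 : p ≠ 2) (A : Rep.{0} (ZMod p) GQ)
    [FiniteDimensional (ZMod p) A] {U₀ : Subgroup GQ} (hU₀ : U₀ ∈ (globalLevels S).levels)
    (hU₀A : U₀ ≤ A.ρ.ker) (B : ℕ)
    (h : ∀ (V : Subgroup GQ) (hV : V ∈ (globalLevels S).levels) (hVU : V ≤ U₀),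
      haveI := (globalLevels S).normal V hV
      finrank (ZMod p)
        ↥(sha1Fin S (QuotientGroup.mk' V) (LevelModel.levelRep A V (hVU.trans hU₀A))) ≤ B) :
    ∃ (V₁ : Subgroup GQ) (_ : V₁ ∈ (globalLevels S).levels) (hV₁U : V₁ ≤ U₀),
      FiniteDimensional (ZMod p) ↥(sha₁ S A) ∧
      ∀ (V : Subgroup GQ) (hV : V ∈ (globalLevels S).levels) (hVV : V ≤ V₁),
        haveI := (globalLevels S).normal V hV
        finrank (ZMod p)
          ↥(sha1Fin S (QuotientGroup.mk' V)
            (LevelModel.levelRep A V ((hVV.trans hV₁U).trans hU₀A))) =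
          finrank (ZMod p) ↥(sha₁ S A) := by
  obtain ⟨V₁, hV₁, hV₁U, hsha, hstat⟩ := exists_stable_shaLevel S A hU₀ B fun V hV hVU => by
    haveI := (globalLevels S).normal V hV
    exact ⟨finiteDimensional_shaLevel S hp2 A hV (hVU.trans hU₀A),
      (finrank_shaLevel_eq S hp2 A hV (hVU.trans hU₀A)).trans_le (h V hV hVU)⟩
  refine ⟨V₁, hV₁, hV₁U, ?_, fun V hV hVV => ?_⟩
  · haveI := (globalLevels S).normal V₁ hV₁
    rw [hsha]
    exact finiteDimensional_shaLevel S hp2 A hV₁ (hV₁U.trans hU₀A)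
  · haveI := (globalLevels S).normal V hV
    rw [← finrank_shaLevel_eq S hp2 A hV ((hVV.trans hV₁U).trans hU₀A), hstat V hV hVV, ← hsha]

/-- Variant of `exists_stable_level` with an equality at every level as hypothesis replaced by the
conclusion `finrank (sha₁ S A) ≤ B`. -/
theorem finrank_sha₁_le_of_levels (hp2 : p ≠ 2) (A : Rep.{0} (ZMod p) GQ)
    [FiniteDimensional (ZMod p) A] {U₀ : Subgroup GQ} (hU₀ : U₀ ∈ (globalLevels S).levels)
    (hU₀A : U₀ ≤ A.ρ.ker) (B : ℕ)
    (h : ∀ (V : Subgroup GQ) (hV : V ∈ (globalLevels S).levels) (hVU : V ≤ U₀),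
      haveI := (globalLevels S).normal V hV
      finrank (ZMod p)
        ↥(sha1Fin S (QuotientGroup.mk' V) (LevelModel.levelRep A V (hVU.trans hU₀A))) ≤ B) :
    FiniteDimensional (ZMod p) ↥(sha₁ S A) ∧ finrank (ZMod p) ↥(sha₁ S A) ≤ B := by
  obtain ⟨V₁, hV₁, hV₁U, hfin, hV⟩ := exists_stable_level S hp2 A hU₀ hU₀A B h
  exact ⟨hfin, (hV V₁ hV₁ le_rfl).symm.trans_le (h V₁ hV₁ hV₁U)⟩

end Compare

end Fermat.Agent.S55.ProfinLocal31.Stab2
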